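import Mathlib

/-!
# Imaginary quadratic fields: units and primes of small norm

For a quadratic field `K` containing a square root of a negative integer `d` with `-d` and `-3d` not
squares the only units of `𝓞 K` are `±1`.  A nonzero prime over `q` has norm `q` or is `(q)`;
two different primes of norm `q` multiply to `(q)`.
-/

set_option autoImplicit false
set_option linter.style.haveILetI false

noncomputable section

namespace Fermat.Agent.TwoAdic.CFT

open Module
open scoped NumberField nonZeroDivisors Polynomial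

section Int

theorem padicValInt_two_mul_self {k : ℤ} (hk : k ≠ 0) :
    padicValInt 2 (k * k) = 2 * padicValInt 2 k := by
  rw [padicValInt.mul hk hk, two_mul]

theorem not_isSquare_of_odd_padicValInt {e d : ℤ} (he : e ≠ 0) (he2 : padicValInt 2 e = 0)
    (hd : Odd (padicValInt 2 d)) : ¬ IsSquare (e * d) := by
  rintro ⟨k, hk⟩
  have hd0 : d ≠ 0 := by rintro rfl; simp at hd
  have hk0 : k ≠ 0 := by
    rintro rfl
    simp [he, hd0] at hk
  have h := congrArg (padicValInt 2) hk
  rw [padicValInt.mul he hd0, he2, zero_add, padicValInt_two_mul_self hk0] at h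
  rw [h] at hd
  simp [Nat.odd_iff] at hd

theorem not_isSquare_neg_of_odd_padicValInt {d : ℤ} (hd : Odd (padicValInt 2 d)) :
    ¬ IsSquare (-d) ∧ ¬ IsSquare (-3 * d) := by
  refine ⟨?_, not_isSquare_of_odd_padicValInt (by norm_num) ?_ hd⟩
  · rw [← neg_one_mul]
    exact not_isSquare_of_odd_padicValInt (by norm_num) (by simp [padicValInt]) hd
  · simp [padicValInt, padicValNat.eq_zero_of_not_dvd]

/-- A negative integer with odd valuation at each of its primes is `-(2m)` times a square if it is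
even. -/
theorem exists_eq_neg_two_mul_mul_sq {d : ℤ} (hd : d < 0) (h2 : (2 : ℤ) ∣ d)
    (hodd : ∀ q : ℕ, q.Prime → (q : ℤ) ∣ d → Odd (padicValInt q d)) :
    ∃ m s : ℕ, Odd m ∧ Squarefree m ∧ s ≠ 0 ∧ d = -(2 * (m : ℤ)) * (s : ℤ) ^ 2 ∧
      ∀ q : ℕ, q.Prime → q ≠ 2 → (q ∣ m ↔ (q : ℤ) ∣ d) := by
  set n := d.natAbs with hn
  have hn0 : n ≠ 0 := by simp [n, ne_of_lt hd]
  have h2n : 2 ∈ n.primeFactors := by
    refine Nat.mem_primeFactors.mpr ⟨Nat.prime_two, ?_, hn0⟩
    exact Int.ofNat_dvd_left.mp h2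
  set S := n.primeFactors.erase 2
  set m := ∏ q ∈ S, q with hm
  set s := ∏ q ∈ n.primeFactors, q ^ (n.factorization q / 2) with hs
  have hprime : ∀ q ∈ S, q.Prime := fun q hq =>
    Nat.prime_of_mem_primeFactors (Finset.mem_of_mem_erase hq)
  have hmem : ∀ q : ℕ, q.Prime → (q ∣ m ↔ q ∈ S) := fun q hq => by
    refine ⟨fun h => ?_, fun h => Finset.dvd_prod_of_mem _ h⟩
    obtain ⟨r, hr, hqr⟩ := (hq.prime.dvd_finsetProd_iff _).mp h
    rwa [(Nat.prime_dvd_prime_iff_eq hq (hprime r hr)).mp hqr]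
  refine ⟨m, s, ?_, ?_, ?_, ?_, fun q hq hq2 => ?_⟩
  · rw [Nat.odd_iff, ← Nat.two_dvd_ne_zero, hmem 2 Nat.prime_two]
    simp [S]
  · refine Finset.squarefree_prod_of_pairwise_isCoprime ?_ fun q hq => (hprime q hq).squarefree
    intro a ha b hb hab
    exact Nat.coprime_iff_isRelPrime.mp ((Nat.coprime_primes (hprime a ha) (hprime b hb)).mpr hab)
  · exact Finset.prod_ne_zero_iff.mpr fun q hq =>
      pow_ne_zero _ (Nat.prime_of_mem_primeFactors hq).ne_zero
  · have key : (n : ℕ) = 2 * m * s ^ 2 := by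
      rw [hm, Finset.mul_prod_erase _ (fun q => q) h2n, hs, ← Finset.prod_pow,
        ← Finset.prod_mul_distrib]
      conv_lhs => rw [← Nat.prod_factorization_pow_eq_self hn0]
      rw [Finsupp.prod, Nat.support_factorization]
      refine Finset.prod_congr rfl fun q hq => ?_
      have hqp := Nat.prime_of_mem_primeFactors hq
      have ho : Odd (n.factorization q) := by
        rw [Nat.factorization_def _ hqp]
        exact hodd q hqp (Int.ofNat_dvd_left.mpr (Nat.dvd_of_mem_primeFactors hq))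
      obtain ⟨k, hk⟩ := ho
      rw [hk, show (2 * k + 1) / 2 = k by omega]
      ring
    have : (n : ℤ) = -d := by rw [hn]; omega
    rw [key] at this
    push_cast at this
    linarith
  · rw [hmem q hq, Int.ofNat_dvd_left]
    simp [S, hq2, hq, hn0, n]

end Int

variable {K : Type*} [Field K] [NumberField K]

section Units

variable {x : K} {d : ℤ}

theorem sqrt_ne_algebraMap (hd : d < 0) (hx : x ^ 2 = (d : K)) (r : ℚ) :
    algebraMap ℚ K r ≠ x := by
  intro h
  have h2 : algebraMap ℚ K (r ^ 2) = algebraMap ℚ K (d : ℚ) := by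
    rw [map_pow, h, map_intCast, hx]
  have h3 : r ^ 2 = (d : ℚ) := (algebraMap ℚ K).injective h2
  have : (d : ℚ) < 0 := by exact_mod_cast hd
  nlinarith [sq_nonneg r]

/-- `1, √d` is a basis of a quadratic field. -/
theorem exists_eq_add_mul_sqrt (hK : finrank ℚ K = 2) (hd : d < 0) (hx : x ^ 2 = (d : K))
    (u : K) : ∃ a b : ℚ, u = algebraMap ℚ K a + algebraMap ℚ K b * x := by
  have hli : LinearIndependent ℚ ![(1 : K), x] := by
    rw [LinearIndependent.pair_iff' one_ne_zero]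
    intro r hr
    exact sqrt_ne_algebraMap hd hx r (by rw [← hr, Algebra.smul_def, mul_one])
  have hspan := hli.span_eq_top_of_card_eq_finrank (by rw [Fintype.card_fin, hK])
  have hu : u ∈ Submodule.span ℚ ({1, x} : Set K) := by
    rw [Matrix.range_cons, Matrix.range_cons, Matrix.range_empty, Set.union_empty,
      Set.singleton_union] at hspan
    rw [hspan]
    trivial
  obtain ⟨a, b, hab⟩ := Submodule.mem_span_pair.mp hu
  exact ⟨a, b, by rw [← hab, Algebra.smul_def, Algebra.smul_def, mul_one]⟩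

open Polynomial in
/-- An integral element `a + b√d` with `b ≠ 0` has integral trace and norm. -/
theorem exists_int_trace_norm (hd : d < 0) (hx : x ^ 2 = (d : K)) {a b : ℚ} (hb : b ≠ 0)
    (h : IsIntegral ℤ (algebraMap ℚ K a + algebraMap ℚ K b * x)) :
    (∃ t : ℤ, 2 * a = (t : ℚ)) ∧ ∃ n : ℤ, a ^ 2 - b ^ 2 * (d : ℚ) = (n : ℚ) := by
  set u := algebraMap ℚ K a + algebraMap ℚ K b * x with hu
  set f : ℚ[X] := X ^ 2 + C (-(2 * a)) * X + C (a ^ 2 - b ^ 2 * (d : ℚ)) with hf
  have hfm : f.Monic := by rw [hf]; monicity!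
  have hfd : f.natDegree = 2 := by rw [hf]; compute_degree!
  have hroot : aeval u f = 0 := by
    simp only [hf, hu, map_add, map_mul, map_pow, map_sub, map_neg, aeval_X, aeval_C, map_ofNat,
      map_intCast]
    rw [← hx]
    ring
  have hu2 : 2 ≤ (minpoly ℚ u).natDegree := by
    refine (minpoly.two_le_natDegree_iff (IsIntegral.of_finite ℚ u)).mpr ?_
    rintro ⟨r, hr⟩
    refine sqrt_ne_algebraMap hd hx ((r - a) / b) ?_
    have hb' : algebraMap ℚ K b ≠ 0 := (_root_.map_ne_zero _).mpr hb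
    rw [map_div₀, map_sub, hr, hu]
    field_simp
    ring
  have heq : minpoly ℚ u = f :=
    (Polynomial.eq_of_monic_of_dvd_of_natDegree_le (minpoly.monic (IsIntegral.of_finite ℚ u)) hfm
      (minpoly.dvd ℚ u hroot) (by omega)).symm
  have hz := minpoly.isIntegrallyClosed_eq_field_fractions' ℚ h
  rw [heq] at hz
  constructor
  · refine ⟨-(minpoly ℤ u).coeff 1, ?_⟩
    have := congrArg (fun g : ℚ[X] => g.coeff 1) hz
    simp [hf, -map_sub, -map_pow, -map_mul, coeff_C] at this
    push_cast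
    linarith
  · refine ⟨(minpoly ℤ u).coeff 0, ?_⟩
    have := congrArg (fun g : ℚ[X] => g.coeff 0) hz
    simpa [hf, -map_sub, -map_pow, -map_mul] using this

theorem isSquare_of_ratCast_eq_sq {n : ℤ} {r : ℚ} (h : (n : ℚ) = r ^ 2) : IsSquare n := by
  rw [← Rat.isSquare_intCast_iff]
  exact ⟨r, by rw [h, sq]⟩

/-- The units of an imaginary quadratic field other than `ℚ(i)` and `ℚ(√-3)`. -/
theorem units_eq_one_or_neg_one (hK : finrank ℚ K = 2) (hd : d < 0) (hx : x ^ 2 = (d : K))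
    (h1 : ¬ IsSquare (-d)) (h3 : ¬ IsSquare (-3 * d)) (u : (𝓞 K)ˣ) : u = 1 ∨ u = -1 := by
  obtain ⟨a, b, hab⟩ := exists_eq_add_mul_sqrt hK hd hx ((u : 𝓞 K) : K)
  have hu : IsIntegral ℤ ((u : 𝓞 K) : K) := NumberField.RingOfIntegers.isIntegral_coe _
  have hv : IsIntegral ℤ (((u⁻¹ : (𝓞 K)ˣ) : 𝓞 K) : K) :=
    NumberField.RingOfIntegers.isIntegral_coe _
  have huv : ((u : 𝓞 K) : K) * (((u⁻¹ : (𝓞 K)ˣ) : 𝓞 K) : K) = 1 := by
    rw [← map_mul, Units.mul_inv, map_one]
  rw [hab] at hu huv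
  by_cases hb : b = 0
  · subst hb
    simp only [map_zero, zero_mul, add_zero] at hu huv hab
    rw [eq_inv_of_mul_eq_one_right huv, ← map_inv₀] at hv
    rw [isIntegral_algebraMap_iff (algebraMap ℚ K).injective, IsIntegrallyClosed.isIntegral_iff]
      at hu hv
    obtain ⟨p, hp⟩ := hu
    obtain ⟨q, hq⟩ := hv
    rw [eq_intCast] at hp hq
    have ha : a ≠ 0 := by rintro rfl; simp at huv
    have hpq : p * q = 1 := by
      have : ((p * q : ℤ) : ℚ) = 1 := by rw [Int.cast_mul, hp, hq, mul_inv_cancel₀ ha]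
      exact_mod_cast this
    rcases Int.eq_one_or_neg_one_of_mul_eq_one hpq with rfl | rfl
    · left
      ext
      rw [hab, ← hp]
      simp
    · right
      ext
      rw [hab, ← hp]
      simp
  · exfalso
    obtain ⟨⟨t, ht⟩, ⟨n, hn⟩⟩ := exists_int_trace_norm hd hx hb hu
    set N := a ^ 2 - b ^ 2 * (d : ℚ) with hN
    have hdQ : (d : ℚ) < 0 := by exact_mod_cast hd
    have hNpos : 0 < N := by nlinarith [sq_nonneg a, pow_two_pos_of_ne_zero hb]
    have hv' : (((u⁻¹ : (𝓞 K)ˣ) : 𝓞 K) : K) =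
        algebraMap ℚ K (a / N) + algebraMap ℚ K (-b / N) * x := by
      rw [eq_inv_of_mul_eq_one_right huv]
      refine inv_eq_of_mul_eq_one_right ?_
      have hN' : algebraMap ℚ K N ≠ 0 := (_root_.map_ne_zero _).mpr hNpos.ne'
      simp only [map_div₀, map_neg]
      field_simp
      rw [hN, map_sub, map_mul, map_pow, map_pow, map_intCast, ← hx]
      ring
    rw [hv'] at hv
    obtain ⟨-, n', hn'⟩ :=
      exists_int_trace_norm hd hx (div_ne_zero (neg_ne_zero.mpr hb) hNpos.ne') hv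
    have hnn : n * n' = 1 := by
      have : ((n * n' : ℤ) : ℚ) = 1 := by
        rw [Int.cast_mul, ← hn, ← hn']
        have := hNpos.ne'
        field_simp
        rw [hN]
      exact_mod_cast this
    have hn1 : n = 1 := by
      rcases Int.eq_one_or_neg_one_of_mul_eq_one hnn with h | h
      · exact h
      · subst h
        rw [hn] at hNpos
        norm_num at hNpos
    subst hn1
    rw [Int.cast_one] at hn
    have htQ : (t : ℚ) ^ 2 < 4 := by
      rw [← ht]
      nlinarith [pow_two_pos_of_ne_zero hb]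
    have ht4 : t ^ 2 < 4 := by exact_mod_cast htQ
    have htl : -1 ≤ t := by nlinarith
    have htu : t ≤ 1 := by nlinarith
    rw [hN, show a = (t : ℚ) / 2 by linarith] at hn
    interval_cases t
    · refine h3 (isSquare_of_ratCast_eq_sq (r := 3 / (2 * b)) ?_)
      push_cast at hn ⊢
      field_simp
      linarith
    · refine h1 (isSquare_of_ratCast_eq_sq (r := 1 / b) ?_)
      push_cast at hn ⊢
      field_simp
      linarith
    · refine h3 (isSquare_of_ratCast_eq_sq (r := 3 / (2 * b)) ?_)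
      push_cast at hn ⊢
      field_simp
      linarith

/-- The case of odd valuation at `2`. -/
theorem units_eq_one_or_neg_one_of_odd_val (hK : finrank ℚ K = 2) (hd : d < 0)
    (hx : x ^ 2 = (d : K)) (h2 : Odd (padicValInt 2 d)) (u : (𝓞 K)ˣ) : u = 1 ∨ u = -1 :=
  units_eq_one_or_neg_one hK hd hx (not_isSquare_neg_of_odd_padicValInt h2).1
    (not_isSquare_neg_of_odd_padicValInt h2).2 u

end Units

section Primes

variable {q : ℕ}

theorem absNorm_span_natCast (hK : finrank ℚ K = 2) (q : ℕ) :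
    Ideal.absNorm (Ideal.span {(q : 𝓞 K)}) = q ^ 2 := by
  rw [Ideal.absNorm_span_singleton, ← map_natCast (algebraMap ℤ (𝓞 K)) q, Algebra.norm_algebraMap,
    NumberField.RingOfIntegers.rank, hK, Int.natAbs_pow, Int.natAbs_natCast]

theorem natCast_mem_of_absNorm_eq {P : Ideal (𝓞 K)} (h : Ideal.absNorm P = q) :
    (q : 𝓞 K) ∈ P :=
  h ▸ Ideal.absNorm_mem P

/-- A prime over `q` of a quadratic field has norm `q` or is `(q)`. -/
theorem absNorm_eq_or_eq_span (hK : finrank ℚ K = 2) (hq : q.Prime) {P : Ideal (𝓞 K)}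
    [P.IsPrime] (hqP : (q : 𝓞 K) ∈ P) :
    Ideal.absNorm P = q ∨ P = Ideal.span {(q : 𝓞 K)} := by
  have hle : Ideal.span {(q : 𝓞 K)} ≤ P := (Ideal.span_singleton_le_iff_mem _).mpr hqP
  have hdvd := Ideal.absNorm_dvd_absNorm_of_le hle
  rw [absNorm_span_natCast hK] at hdvd
  obtain ⟨i, hi, hPi⟩ := (Nat.dvd_prime_pow hq).mp hdvd
  interval_cases i
  · exact absurd (Ideal.absNorm_eq_one_iff.mp (by simpa using hPi)) ‹P.IsPrime›.ne_top
  · exact Or.inl (by simpa using hPi)
  · right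
    obtain ⟨J, hJ⟩ := Ideal.dvd_iff_le.mpr hle
    have := congrArg Ideal.absNorm hJ
    rw [map_mul, absNorm_span_natCast hK, hPi] at this
    have hJ1 : Ideal.absNorm J = 1 :=
      (mul_eq_left₀ (pow_ne_zero _ hq.ne_zero)).mp this.symm
    rw [hJ, Ideal.absNorm_eq_one_iff.mp hJ1, Ideal.mul_top]

/-- An ideal of prime norm has a complement in `(q)` of the same norm. -/
theorem exists_mul_eq_span (hK : finrank ℚ K = 2) (hq : q.Prime) {P : Ideal (𝓞 K)}
    (hP : Ideal.absNorm P = q) :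
    ∃ J : Ideal (𝓞 K), Ideal.absNorm J = q ∧ P * J = Ideal.span {(q : 𝓞 K)} := by
  obtain ⟨J, hJ⟩ := Ideal.dvd_iff_le.mpr
    ((Ideal.span_singleton_le_iff_mem _).mpr (natCast_mem_of_absNorm_eq hP))
  refine ⟨J, ?_, hJ.symm⟩
  have := congrArg Ideal.absNorm hJ
  rw [map_mul, absNorm_span_natCast hK, hP, sq] at this
  exact (Nat.eq_of_mul_eq_mul_left hq.pos this).symm

/-- Two primes of norm `q` over `q` are equal or multiply to `(q)`. -/
theorem eq_or_mul_eq_span (hK : finrank ℚ K = 2) (hq : q.Prime) {P P' : Ideal (𝓞 K)}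
    (hP : Ideal.absNorm P = q) (hP' : Ideal.absNorm P' = q) :
    P = P' ∨ P * P' = Ideal.span {(q : 𝓞 K)} := by
  by_cases hne : P = P'
  · exact Or.inl hne
  refine Or.inr ?_
  haveI hPp : P.IsPrime := Ideal.isPrime_of_irreducible_absNorm (hP ▸ hq)
  haveI hPp' : P'.IsPrime := Ideal.isPrime_of_irreducible_absNorm (hP' ▸ hq)
  obtain ⟨J, hJn, hJ⟩ := exists_mul_eq_span hK hq hP
  have hmem : P * J ≤ P' := by
    rw [hJ, Ideal.span_singleton_le_iff_mem]
    exact natCast_mem_of_absNorm_eq hP'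
  rcases hPp'.mul_le.mp hmem with h | h
  · have hP0 : P ≠ ⊥ := fun h0 => hq.ne_zero (by rw [← hP, h0, Ideal.absNorm_bot])
    exact absurd ((hPp.isMaximal hP0).eq_of_le hPp'.ne_top h) hne
  · haveI hJp : J.IsPrime := Ideal.isPrime_of_irreducible_absNorm (hJn ▸ hq)
    have hJ0 : J ≠ ⊥ := fun h0 => hq.ne_zero (by rw [← hJn, h0, Ideal.absNorm_bot])
    rw [← (hJp.isMaximal hJ0).eq_of_le hPp'.ne_top h, hJ]

theorem mk0_mul_eq_one_of_span {P P' : (Ideal (𝓞 K))⁰}
    (h : (P : Ideal (𝓞 K)) * P' = Ideal.span {(q : 𝓞 K)}) :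
    ClassGroup.mk0 P * ClassGroup.mk0 P' = 1 := by
  rw [← map_mul, ClassGroup.mk0_eq_one_iff]
  exact ⟨⟨(q : 𝓞 K), h⟩⟩

/-- Two primes of norm `q` have equal or inverse classes. -/
theorem mk0_eq_or_eq_inv (hK : finrank ℚ K = 2) (hq : q.Prime) {P P' : (Ideal (𝓞 K))⁰}
    (hP : Ideal.absNorm (P : Ideal (𝓞 K)) = q) (hP' : Ideal.absNorm (P' : Ideal (𝓞 K)) = q) :
    ClassGroup.mk0 P' = ClassGroup.mk0 P ∨ ClassGroup.mk0 P' = (ClassGroup.mk0 P)⁻¹ :=
  (eq_or_mul_eq_span hK hq hP hP').imp (fun h => by rw [Subtype.ext h])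
    fun h => eq_inv_of_mul_eq_one_right (mk0_mul_eq_one_of_span h)

end Primes

end Fermat.Agent.TwoAdic.CFT
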