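import Fermat.Agent.TwoAdic.Curve.TwoTorsion
import Fermat.Agent.TwoAdic.CFT.Quad

/-!
# The fields of the 2-torsion of a curve with negative discriminant

`quadField W = ℚ(√Δ)` and `twoField W = ℚ(W[2])` inside `QBar`, built from `sqrtDisc W` and
`root W`.  An automorphism fixes `twoField W` pointwise iff it fixes `W[2]` pointwise, and
`quadField W` iff its permutation is even.  For `IsTwoAdicCurve W` the degrees are `2` and `3`.
-/

set_option autoImplicit false
set_option linter.style.haveILetI false

noncomputable section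

namespace Fermat.Agent.TwoAdic.CFT

open Module IntermediateField WeierstrassCurve WeierstrassCurve.Affine
open Fermat.Agent.Arith (QBar GQ)
open scoped NumberField Polynomial WeierstrassCurve.Affine

section Defs

variable (W : WeierstrassCurve ℤ)

/-- The field `ℚ(√Δ)`. -/
def quadField : IntermediateField ℚ QBar := IntermediateField.adjoin ℚ {Curve.sqrtDisc W}

/-- The field of the 2-torsion. -/
def twoField : IntermediateField ℚ QBar := IntermediateField.adjoin ℚ (Set.range (Curve.root W))

theorem sqrtDisc_mem : Curve.sqrtDisc W ∈ quadField W :=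
  IntermediateField.subset_adjoin _ _ (Set.mem_singleton _)

theorem root_mem (i : Fin 3) : Curve.root W i ∈ twoField W :=
  IntermediateField.subset_adjoin _ _ ⟨i, rfl⟩

/-- `√Δ` as an element of `quadField W`. -/
def sqrtDiscK : quadField W := ⟨Curve.sqrtDisc W, sqrtDisc_mem W⟩

theorem sqrtDiscK_sq : sqrtDiscK W ^ 2 = (W.Δ : quadField W) := by
  apply Subtype.ext
  simp [sqrtDiscK, Curve.sqrtDisc_sq]

instance quadField_finiteDimensional : FiniteDimensional ℚ (quadField W) :=
  adjoin.finiteDimensional (Algebra.IsIntegral.isIntegral _)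

instance quadField_numberField : NumberField (quadField W) where
  to_charZero := inferInstance
  to_finiteDimensional := inferInstance

instance twoField_finiteDimensional : FiniteDimensional ℚ (twoField W) :=
  IntermediateField.finiteDimensional_adjoin fun x _ => Algebra.IsIntegral.isIntegral x

instance twoField_numberField : NumberField (twoField W) where
  to_charZero := inferInstance
  to_finiteDimensional := inferInstance

/-- An automorphism fixes `twoField W` pointwise iff it fixes the roots. -/
theorem fix_twoField_iff_roots (σ : GQ) :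
    (∀ x ∈ twoField W, σ x = x) ↔ ∀ i, σ (Curve.root W i) = Curve.root W i := by
  refine ⟨fun h i => h _ (root_mem W i), fun h x hx => ?_⟩
  induction hx using IntermediateField.adjoin_induction with
  | mem x hx => obtain ⟨i, rfl⟩ := hx; exact h i
  | algebraMap r => exact σ.commutes r
  | add x y _ _ h1 h2 => rw [map_add, h1, h2]
  | inv x _ h1 => rw [map_inv₀, h1]
  | mul x y _ _ h1 h2 => rw [map_mul, h1, h2]

/-- An automorphism fixes `quadField W` pointwise iff it fixes `√Δ`. -/
theorem fix_quadField_iff (σ : GQ) :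
    (∀ x ∈ quadField W, σ x = x) ↔ σ (Curve.sqrtDisc W) = Curve.sqrtDisc W := by
  refine ⟨fun h => h _ (sqrtDisc_mem W), fun h x hx => ?_⟩
  induction hx using IntermediateField.adjoin_induction with
  | mem x hx => rwa [Set.mem_singleton_iff.mp hx]
  | algebraMap r => exact σ.commutes r
  | add x y _ _ h1 h2 => rw [map_add, h1, h2]
  | inv x _ h1 => rw [map_inv₀, h1]
  | mul x y _ _ h1 h2 => rw [map_mul, h1, h2]

/-- `twoField W` is stable under automorphisms. -/
theorem twoField_stable (σ : GQ) {x : QBar} (hx : x ∈ twoField W) : σ x ∈ twoField W := by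
  induction hx using IntermediateField.adjoin_induction with
  | mem x hx =>
    obtain ⟨i, rfl⟩ := hx
    obtain ⟨j, hj⟩ := Curve.exists_root_apply (W := W) σ i
    rw [← hj]
    exact root_mem W j
  | algebraMap r => rw [σ.commutes]; exact IntermediateField.algebraMap_mem _ r
  | add x y _ _ h1 h2 => rw [map_add]; exact add_mem h1 h2
  | inv x _ h1 => rw [map_inv₀]; exact inv_mem h1
  | mul x y _ _ h1 h2 => rw [map_mul]; exact mul_mem h1 h2

instance twoField_normal : Normal ℚ (twoField W) := by
  refine IntermediateField.normal_iff_forall_map_le'.mpr ?_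
  rintro σ x ⟨y, hy, rfl⟩
  exact twoField_stable W σ hy

instance twoField_isGalois : IsGalois ℚ (twoField W) where

theorem quadField_le_twoField : quadField W ≤ twoField W := by
  unfold quadField
  rw [IntermediateField.adjoin_le_iff, Set.singleton_subset_iff, SetLike.mem_coe,
    Curve.sqrtDisc, Curve.rootDiff]
  exact div_mem (mul_mem (mul_mem (sub_mem (root_mem W 0) (root_mem W 1))
    (sub_mem (root_mem W 0) (root_mem W 2))) (sub_mem (root_mem W 1) (root_mem W 2)))
    (_root_.natCast_mem _ 16)

/-- `twoField W` over `quadField W`. -/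
abbrev twoFieldOver : IntermediateField (quadField W) QBar :=
  IntermediateField.extendScalars (quadField_le_twoField W)

theorem mem_twoFieldOver {x : QBar} : x ∈ twoFieldOver W ↔ x ∈ twoField W := Iff.rfl

theorem twoFieldOver_stable (σ : GQ) (x : QBar) (hx : x ∈ twoFieldOver W) :
    σ x ∈ twoFieldOver W :=
  twoField_stable W σ hx

instance twoFieldOver_finiteDimensional : FiniteDimensional (quadField W) (twoFieldOver W) :=
  haveI : FiniteDimensional ℚ (twoFieldOver W) := twoField_finiteDimensional W
  Module.Finite.right ℚ (quadField W) (twoFieldOver W)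

instance twoFieldOver_numberField : NumberField (twoFieldOver W) where
  to_charZero := inferInstance
  to_finiteDimensional := twoField_finiteDimensional W

instance twoFieldOver_isGalois : IsGalois (quadField W) (twoFieldOver W) :=
  haveI : IsGalois ℚ (twoFieldOver W) := twoField_isGalois W
  IsGalois.tower_top_of_isGalois ℚ (quadField W) (twoFieldOver W)

end Defs

section Torsion

variable {W : WeierstrassCurve ℤ} (hΔ : W.Δ ≠ 0)
include hΔ

theorem fix_twoField_iff_perm (σ : GQ) :
    (∀ x ∈ twoField W, σ x = x) ↔ Curve.perm hΔ σ = 1 :=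
  (fix_twoField_iff_roots W σ).trans (Curve.perm_eq_one_iff hΔ).symm

/-- An automorphism fixes `quadField W` iff it permutes the roots evenly. -/
theorem fix_quadField_iff_sign (σ : GQ) :
    (∀ x ∈ quadField W, σ x = x) ↔ Equiv.Perm.sign (Curve.perm hΔ σ) = 1 :=
  (fix_quadField_iff W σ).trans (Curve.sign_perm_eq_one_iff hΔ).symm

/-- An automorphism fixes `twoField W` pointwise iff it fixes the 2-torsion pointwise. -/
theorem fix_twoField_iff (σ : GQ) :
    (∀ x ∈ twoField W, σ x = x) ↔
      ∀ T : Submodule.torsionBy ℤ ((W.map (Int.castRingHom ℚ)).toAffine⁄QBar).Point ((2 : ℕ) : ℤ),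
        σ • T = T := by
  rw [fix_twoField_iff_perm hΔ]
  constructor
  · intro h T
    rcases Curve.eq_zero_or_twoPoint hΔ T with rfl | ⟨i, rfl⟩
    · exact smul_zero σ
    · rw [Curve.smul_twoPoint, h, Equiv.Perm.one_apply]
  · intro h
    refine Equiv.ext fun i => Curve.twoPoint_injective hΔ ?_
    rw [← Curve.smul_twoPoint, h, Equiv.Perm.one_apply]

/-- `twoField W` is generated by one root and `√Δ`. -/
theorem twoField_eq_sup :
    twoField W = IntermediateField.adjoin ℚ {Curve.root W 0} ⊔ quadField W := by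
  refine le_antisymm ?_ (sup_le ?_ (quadField_le_twoField W))
  · set L := IntermediateField.adjoin ℚ {Curve.root W 0} ⊔ quadField W
    obtain ⟨hb2, hb4, -⟩ := Curve.root_sum W
    set e₁ := Curve.root W 0 with he1
    set e₂ := Curve.root W 1 with he2
    set e₃ := Curve.root W 2 with he3
    have h1 : e₁ ∈ L :=
      (le_sup_left : IntermediateField.adjoin ℚ {e₁} ≤ L)
        (IntermediateField.subset_adjoin _ _ (Set.mem_singleton e₁))
    have hs : Curve.sqrtDisc W ∈ L := (le_sup_right : quadField W ≤ L) (sqrtDisc_mem W)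
    have hsum : e₂ + e₃ ∈ L := by
      have : e₂ + e₃ = -(W.b₂ : QBar) - e₁ := by rw [← hb2]; ring
      rw [this]
      exact sub_mem (neg_mem (intCast_mem _ _)) h1
    have hprod : (e₁ - e₂) * (e₁ - e₃) ∈ L := by
      have : (e₁ - e₂) * (e₁ - e₃) = e₁ ^ 2 - 2 * e₁ * (e₂ + e₃) + 8 * (W.b₄ : QBar) := by
        rw [← hb4]; ring
      rw [this]
      exact add_mem (sub_mem (pow_mem h1 2) (mul_mem (mul_mem (_root_.natCast_mem _ 2) h1) hsum))
        (mul_mem (_root_.natCast_mem _ 8) (intCast_mem _ _))
    have hdiff : e₂ - e₃ ∈ L := by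
      have hne : (e₁ - e₂) * (e₁ - e₃) ≠ 0 := fun h =>
        Curve.rootDiff_ne_zero hΔ (by rw [Curve.rootDiff, ← he1, ← he2, ← he3, h, zero_mul])
      have : e₂ - e₃ = 16 * Curve.sqrtDisc W / ((e₁ - e₂) * (e₁ - e₃)) := by
        rw [eq_div_iff hne, Curve.sqrtDisc, Curve.rootDiff, ← he1, ← he2, ← he3]
        ring
      rw [this]
      exact div_mem (mul_mem (_root_.natCast_mem _ 16) hs) hprod
    have h2 : e₂ ∈ L := by
      have : e₂ = ((e₂ + e₃) + (e₂ - e₃)) / 2 := by ring
      rw [this]
      exact div_mem (add_mem hsum hdiff) (_root_.natCast_mem _ 2)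
    have h3 : e₃ ∈ L := by
      have : e₃ = ((e₂ + e₃) - (e₂ - e₃)) / 2 := by ring
      rw [this]
      exact div_mem (sub_mem hsum hdiff) (_root_.natCast_mem _ 2)
    unfold twoField
    rw [IntermediateField.adjoin_le_iff]
    rintro x ⟨i, rfl⟩
    fin_cases i
    exacts [h1, h2, h3]
  · rw [IntermediateField.adjoin_le_iff, Set.singleton_subset_iff]
    exact root_mem W 0

end Torsion

section Degrees

variable {W : WeierstrassCurve ℤ}

theorem finrank_quadField (hΔ : W.Δ < 0) : finrank ℚ (quadField W) = 2 := by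
  have hi : IsIntegral ℚ (Curve.sqrtDisc W) := Algebra.IsIntegral.isIntegral _
  rw [quadField, IntermediateField.adjoin.finrank hi]
  have h1 : (minpoly ℚ (Curve.sqrtDisc W)).natDegree ≤ 2 := by
    have hne : (Polynomial.X ^ 2 - Polynomial.C (W.Δ : ℚ)) ≠ 0 :=
      Polynomial.X_pow_sub_C_ne_zero two_pos _
    have := minpoly.degree_le_of_ne_zero ℚ (Curve.sqrtDisc W) hne (by simp [Curve.sqrtDisc_sq])
    rw [Polynomial.degree_X_pow_sub_C two_pos] at this
    exact Polynomial.natDegree_le_iff_degree_le.mpr this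
  have h2 : 2 ≤ (minpoly ℚ (Curve.sqrtDisc W)).natDegree := by
    refine (minpoly.two_le_natDegree_iff hi).mpr ?_
    rintro ⟨r, hr⟩
    have h3 : algebraMap ℚ QBar (r ^ 2) = algebraMap ℚ QBar (W.Δ : ℚ) := by
      rw [map_pow, hr, map_intCast, Curve.sqrtDisc_sq]
    have h4 : r ^ 2 = (W.Δ : ℚ) := (algebraMap ℚ QBar).injective h3
    have : (W.Δ : ℚ) < 0 := by exact_mod_cast hΔ
    nlinarith [sq_nonneg r]
  omega

theorem finrank_adjoin_root (hW : Curve.IsTwoAdicCurve W) (i : Fin 3) :
    finrank ℚ (IntermediateField.adjoin ℚ {Curve.root W i}) = 3 := by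
  set P : Cubic ℚ := ⟨1, W.b₂, 8 * W.b₄, 16 * W.b₆⟩ with hP
  have ha : P.a ≠ 0 := one_ne_zero
  have hd : P.toPoly.natDegree = 3 := Cubic.natDegree_of_a_ne_zero ha
  have hirr : Irreducible P.toPoly := by
    rw [Polynomial.irreducible_iff_roots_eq_zero_of_degree_le_three (by omega) (by omega)]
    refine Multiset.eq_zero_of_forall_notMem fun r hr => hW.not_rat_root r ?_
    have := (Polynomial.mem_roots'.mp hr).2
    simpa [hP, Cubic.toPoly, Curve.twoCubic] using this
  rw [IntermediateField.adjoin.finrank (Algebra.IsIntegral.isIntegral _)]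
  have h0 : Polynomial.aeval (Curve.root W i) P.toPoly = 0 := by
    simpa [hP, Cubic.toPoly, Curve.twoCubic] using Curve.twoCubic_root W i
  have hass := (minpoly.irreducible (Algebra.IsIntegral.isIntegral (R := ℚ)
    (Curve.root W i))).associated_of_dvd hirr (minpoly.dvd ℚ _ h0)
  rw [Polynomial.natDegree_eq_of_degree_eq (Polynomial.degree_eq_degree_of_associated hass), hd]

theorem finrank_twoField (hW : Curve.IsTwoAdicCurve W) : finrank ℚ (twoField W) = 6 := by
  have h3 := finrank_adjoin_root hW 0
  have h2 := finrank_quadField hW.delta_neg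
  have heq := twoField_eq_sup hW.delta_ne_zero
  have hle : finrank ℚ (twoField W) ≤ 6 := by
    rw [heq]
    calc _ ≤ _ * _ := IntermediateField.finrank_sup_le _ _
      _ = 6 := by rw [h3, h2]
  have d3 : 3 ∣ finrank ℚ (twoField W) :=
    h3 ▸ IntermediateField.finrank_dvd_of_le_right (by rw [heq]; exact le_sup_left)
  have d2 : 2 ∣ finrank ℚ (twoField W) :=
    h2 ▸ IntermediateField.finrank_dvd_of_le_right (quadField_le_twoField W)
  have hpos : 0 < finrank ℚ (twoField W) := finrank_pos
  omega

theorem finrank_twoFieldOver (hW : Curve.IsTwoAdicCurve W) :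
    finrank (quadField W) (twoFieldOver W) = 3 := by
  have h := Module.finrank_mul_finrank ℚ (quadField W) (twoFieldOver W)
  rw [finrank_quadField hW.delta_neg,
    show finrank ℚ (twoFieldOver W) = 6 from finrank_twoField hW] at h
  omega

theorem card_gal_twoFieldOver (hW : Curve.IsTwoAdicCurve W) :
    Nat.card Gal(twoFieldOver W/quadField W) = 3 := by
  rw [IsGalois.card_aut_eq_finrank, finrank_twoFieldOver hW]

/-- The units of `quadField W`. -/
theorem units_quadField (hW : Curve.IsTwoAdicCurve W) (u : (𝓞 (quadField W))ˣ) :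
    u = 1 ∨ u = -1 :=
  units_eq_one_or_neg_one_of_odd_val (finrank_quadField hW.delta_neg) hW.delta_neg
    (sqrtDiscK_sq W) (hW.odd_val 2 Nat.prime_two hW.two_dvd) u

/-- `quadField W = ℚ(√(-2m))`, `m` the product of the odd bad primes. -/
theorem exists_sq_eq_neg_two_mul (hW : Curve.IsTwoAdicCurve W) :
    ∃ m : ℕ, Odd m ∧ Squarefree m ∧
      (∀ q : ℕ, q.Prime → q ≠ 2 → (q ∣ m ↔ (q : ℤ) ∣ W.Δ)) ∧
      ∃ th : quadField W, th ^ 2 = -(2 * (m : quadField W)) := by
  obtain ⟨m, s, hm, hsq, hs, heq, hiff⟩ :=
    exists_eq_neg_two_mul_mul_sq hW.delta_neg hW.two_dvd hW.odd_val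
  refine ⟨m, hm, hsq, hiff, sqrtDiscK W / (s : quadField W), ?_⟩
  rw [div_pow, sqrtDiscK_sq, heq]
  push_cast
  have : (s : quadField W) ≠ 0 := Nat.cast_ne_zero.mpr hs
  field_simp

end Degrees

end Fermat.Agent.TwoAdic.CFT
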