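import Fermat.Agent.TwoAdic.CFT.SplitTrivial
import Fermat.Agent.TwoAdic.CFT.Fields
import Fermat.Agent.TwoAdic.Curve.Inertia

/-!
# The class group character of a two-adic curve

`K = ℚ(√Δ)`; the cubic character `χ` of its class group kills the degree one primes over every `q`
whose Frobenius fixes `W[2]`, is nontrivial on some degree one prime outside any finite set, and
`q ∤ 2Δ` has a prime of degree one exactly when its Frobenius permutes the roots evenly.
-/

set_option autoImplicit false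
set_option linter.style.haveILetI false

noncomputable section

namespace Fermat.Agent.TwoAdic.CFT

open scoped NumberField nonZeroDivisors Pointwise
open Fermat.Agent.Arith (QBar GQ)

variable {W : WeierstrassCurve ℤ}

/-- A place over a given prime of `quadField W`. -/
theorem exists_place_of_prime {q : ℕ} (P : Ideal (𝓞 (quadField W))) [P.IsPrime] (hP : P ≠ ⊥)
    (hq : (q : 𝓞 (quadField W)) ∈ P) :
    ∃ B : ValuationSubring QBar, B.LiesOverPrime q ∧
      ∀ x : 𝓞 (quadField W), (((x : quadField W) : QBar)) ∈ B.nonunits ↔ x ∈ P := by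
  haveI : P.IsMaximal := Ideal.IsPrime.isMaximal ‹_› hP
  obtain ⟨Q, hQmax, hQP⟩ :=
    Ideal.exists_maximal_ideal_liesOver_of_isIntegral (S := 𝓞 (twoFieldOver W)) P
  have hqQ : (q : 𝓞 (twoFieldOver W)) ∈ Q := by
    have h := hq
    rw [hQP.over, Ideal.under_def, Ideal.mem_comap, map_natCast] at h
    exact h
  obtain ⟨B, hB, hBQ⟩ :=
    exists_place_over (quadField W) (twoFieldOver W) Q (Ideal.ne_bot_of_liesOver_of_ne_bot hP Q) hqQ
  refine ⟨B, hB, fun x => ?_⟩
  rw [hQP.over, Ideal.under_def, Ideal.mem_comap, ← hBQ]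
  rfl

/-- `q ∤ 2Δ` has a prime of degree one in `quadField W` iff its Frobenius fixes `√Δ`. -/
theorem exists_absNorm_eq_iff (hΔ : W.Δ < 0) {q : ℕ} (hq : q.Prime) (hq2 : q ≠ 2)
    (hqΔ : ¬ (q : ℤ) ∣ W.Δ) {A : ValuationSubring QBar} (hA : A.LiesOverPrime q) {σ : GQ}
    (hσ : A.IsFrobeniusAt σ q) :
    (∃ P : Ideal (𝓞 (quadField W)), Ideal.absNorm P = q) ↔
      σ (Curve.sqrtDisc W) = Curve.sqrtDisc W := by
  set δ : QBar := Curve.sqrtDisc W with hδ
  have hint : IsIntegral ℤ δ := .of_pow two_pos (by rw [Curve.sqrtDisc_sq]; exact isIntegral_algebraMap)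
  constructor
  · rintro ⟨P, hP⟩
    haveI : P.IsPrime := Ideal.isPrime_of_irreducible_absNorm (hP ▸ hq)
    have hP0 : P ≠ ⊥ := fun h => hq.ne_zero (by rw [← hP, h, Ideal.absNorm_bot])
    obtain ⟨B, hB, hBP⟩ := exists_place_of_prime P hP0 (natCast_mem_of_absNorm_eq hP)
    obtain ⟨γ, rfl⟩ := Arith.exists_smul_eq hA hB hq
    have hfrob := (Arith.isFrobeniusAt_iff hB hq).1 (Arith.isFrobeniusAt_conj (g := γ) hσ)
    haveI : P.IsMaximal := Ideal.IsPrime.isMaximal ‹_› hP0
    letI := Ideal.Quotient.field P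
    haveI : Finite (𝓞 (quadField W) ⧸ P) := Ideal.finiteQuotientOfFreeOfNeBot P hP0
    let x : 𝓞 (quadField W) := ⟨sqrtDiscK W, (isIntegral_algHom_iff
      (quadField W).val.toRingHom.toIntAlgHom (quadField W).val.injective).mp hint⟩
    have hxq : x ^ q - x ∈ P := by
      rw [← Ideal.Quotient.eq, map_pow]
      have hcard : Nat.card (𝓞 (quadField W) ⧸ P) = q := by
        rw [← Submodule.cardQuot_apply, ← hP]; rfl
      haveI : Fintype (𝓞 (quadField W) ⧸ P) := Fintype.ofFinite _
      rw [Nat.card_eq_fintype_card] at hcard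
      conv_lhs => rw [← hcard]
      exact FiniteField.pow_card _
    have h1 : δ ^ q - δ ∈ (γ • A).nonunits := (hBP _).2 hxq
    have h2 := hfrob δ hint
    have h3 : (γ * σ * γ⁻¹) δ - δ ∈ (γ • A).nonunits := by
      simpa using Arith.nonunits_add h2 h1
    have hfix : (γ * σ * γ⁻¹) δ = δ := by
      rcases Curve.map_sqrtDisc_eq_or (γ * σ * γ⁻¹) with h | h
      · exact h
      · exfalso
        rw [h] at h3
        have h4 : ((4 * W.Δ : ℤ) : QBar) ∈ (γ • A).nonunits := by
          have e : ((4 * W.Δ : ℤ) : QBar) = (-δ - δ) * (-δ - δ) := by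
            push_cast; rw [← Curve.sqrtDisc_sq, hδ]; ring
          rw [e]
          exact Arith.nonunits_mul_left (Arith.mem_of_mem_nonunits h3) h3
        rcases (Nat.prime_iff_prime_int.mp hq).dvd_or_dvd
            ((Arith.intCast_mem_nonunits_iff hB hq _).1 h4) with h5 | h5
        · have h6 : q ∣ 4 := Int.natCast_dvd_natCast.mp h5
          exact hq2 ((Nat.prime_dvd_prime_iff_eq hq Nat.prime_two).mp
            (hq.dvd_of_dvd_pow (show q ∣ 2 ^ 2 from h6)))
        · exact hqΔ h5
    have hmem : γ * σ * γ⁻¹ ∈ Curve.discSubgroup W := hfix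
    have h5 := (Curve.discSubgroup_normal (W := W)).conj_mem _ hmem γ⁻¹
    have h6 : σ ∈ Curve.discSubgroup W := by simpa [mul_assoc] using h5
    exact h6
  · intro hfix
    obtain ⟨Q, hQmax, hQ⟩ := Ideal.exists_le_maximal (Ideal.span {(q : 𝓞 (quadField W))}) (by
      intro h
      have := congrArg Ideal.absNorm h
      rw [absNorm_span_natCast (finrank_quadField hΔ), Ideal.absNorm_top] at this
      exact hq.one_lt.ne' ((pow_eq_one_iff.mp this).resolve_right two_ne_zero))
    have hqQ : (q : 𝓞 (quadField W)) ∈ Q := hQ (Ideal.subset_span rfl)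
    have hQ0 : Q ≠ ⊥ := fun h => hq.ne_zero (by rw [h, Ideal.mem_bot] at hqQ; exact_mod_cast hqQ)
    haveI := hQmax.isPrime
    rcases absNorm_eq_or_eq_span (finrank_quadField hΔ) hq hqQ with h | h
    · exact ⟨Q, h⟩
    exfalso
    obtain ⟨B, hB, hBQ⟩ := exists_place_of_prime Q hQ0 hqQ
    obtain ⟨γ, rfl⟩ := Arith.exists_smul_eq hA hB hq
    have hfrob := (Arith.isFrobeniusAt_iff hB hq).1 (Arith.isFrobeniusAt_conj (g := γ) hσ)
    haveI : Finite (𝓞 (quadField W) ⧸ Q) := Ideal.finiteQuotientOfFreeOfNeBot Q hQ0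
    have hle : Nat.card (𝓞 (quadField W) ⧸ Q) ≤ q := by
      refine ClassField.natCard_quotient_le hq.one_lt fun x => ?_
      have h1 := hfrob _ ((NumberField.RingOfIntegers.isIntegral_coe x).map
        (quadField W).val.toRingHom.toIntAlgHom)
      have hfx : ∀ g : GQ, ∀ y ∈ quadField W, (g * σ * g⁻¹) y = y := fun g => by
        refine (fix_quadField_iff W _).mpr ?_
        exact (Curve.discSubgroup_normal (W := W)).conj_mem _ hfix g
      change (γ * σ * γ⁻¹) (((x : quadField W) : QBar)) - (((x : quadField W) : QBar)) ^ q ∈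
        (γ • A).nonunits at h1
      rw [hfx γ _ (x : quadField W).2] at h1
      have h2 : x - x ^ q ∈ Q := (hBQ _).1 (by simpa using h1)
      simpa using Q.neg_mem h2
    have hn : Ideal.absNorm Q = Nat.card (𝓞 (quadField W) ⧸ Q) := Submodule.cardQuot_apply _
    rw [h, absNorm_span_natCast (finrank_quadField hΔ)] at hn
    have hlt : q < q ^ 2 := by nlinarith [hq.one_lt]
    rw [h] at hle
    omega

/-- **The class group character of a curve satisfying `IsTwoAdicCurve`.** -/
theorem exists_classChar (hW : Curve.IsTwoAdicCurve W) :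
    ∃ χ : ClassGroup (𝓞 (quadField W)) →* Multiplicative (ZMod 3), χ ≠ 1 ∧
      (∀ (q : ℕ), q.Prime → ∀ (A : ValuationSubring QBar), A.LiesOverPrime q →
        ∀ σ : GQ, A.IsFrobeniusAt σ q → Curve.perm hW.delta_ne_zero σ = 1 →
        ∀ P : (Ideal (𝓞 (quadField W)))⁰, Ideal.absNorm (P : Ideal (𝓞 (quadField W))) = q →
          χ (ClassGroup.mk0 P) = 1) ∧
      ∀ S : Finset ℕ, ∃ (q : ℕ) (P : (Ideal (𝓞 (quadField W)))⁰), q.Prime ∧ q ∉ S ∧
        Ideal.absNorm (P : Ideal (𝓞 (quadField W))) = q ∧ χ (ClassGroup.mk0 P) ≠ 1 := by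
  obtain ⟨χ, hχ, hA, hB⟩ := exists_classChar_of_fields (quadField W) (twoFieldOver W)
    (finrank_quadField hW.delta_neg) (finrank_twoFieldOver hW) (units_quadField hW)
    (twoFieldOver_stable W) (fun q hq A hA σ hσ hK x hx =>
      (fix_twoField_iff_perm hW.delta_ne_zero σ).mpr
        (hW.perm_inertia_of_fix hA hq hσ ((fix_quadField_iff W σ).mp hK)) x hx)
  exact ⟨χ, hχ, fun q hq A hA' σ hσ hperm => hA q hq A hA' σ hσ fun x hx =>
    (fix_twoField_iff_perm hW.delta_ne_zero σ).mpr hperm x hx, hB⟩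

end Fermat.Agent.TwoAdic.CFT
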