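import Fermat.Agent.Arith.InertiaLift
import Fermat.Agent.ClassField.SplitPrimes

/-!
# Places of `ℚ̄` and primes of a number field inside it

For `H/K` inside `ℚ̄` with `H` stable under the Galois group: triviality of inertia at all places
gives trivial inertia at all primes of `𝓞 H`, and a Frobenius fixing `H` makes the primes over `q`
of degree one.
-/

set_option autoImplicit false
set_option linter.style.haveILetI false

noncomputable section

open NumberField
open scoped Pointwise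

namespace Fermat.Agent.TwoAdic.CFT

open Fermat.Agent.Arith

variable (K : IntermediateField ℚ QBar) (H : IntermediateField K QBar) [NumberField H]

/-- Every nonzero prime of `𝓞 H` is the centre of a place over the prime number it contains. -/
theorem exists_place_over {q : ℕ} (Q : Ideal (𝓞 H)) [Q.IsPrime] (hQ : Q ≠ ⊥)
    (hq : (q : 𝓞 H) ∈ Q) :
    ∃ B : ValuationSubring QBar, B.LiesOverPrime q ∧
      ∀ x : 𝓞 H, ((x : H) : QBar) ∈ B.nonunits ↔ x ∈ Q := by
  let e : 𝓞 H →+* QBar := H.val.toRingHom.comp (algebraMap (𝓞 H) H)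
  have he : Function.Injective e :=
    H.val.injective.comp RingOfIntegers.coe_injective
  set I : Ideal e.range := Q.map e.rangeRestrict with hI
  have hsurj : Function.Surjective e.rangeRestrict := e.rangeRestrict_surjective
  have hinj : Function.Injective e.rangeRestrict := fun x y h => by
    have h' : e x = e y := by simpa using congrArg Subtype.val h
    exact he h'
  have hIc : I.comap e.rangeRestrict = Q := Ideal.comap_map_of_bijective _ ⟨hinj, hsurj⟩
  have hIne : I ≠ ⊤ := fun h => by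
    rw [h, Ideal.comap_top] at hIc
    exact Ideal.IsPrime.ne_top ‹_› hIc.symm
  obtain ⟨B, -, hB⟩ := Ideal.image_subset_nonunits_valuationSubring I hIne
  have hsub : ∀ x ∈ Q, ((x : H) : QBar) ∈ B.nonunits := fun x hx =>
    hB ⟨e.rangeRestrict x, Ideal.mem_map_of_mem _ hx, rfl⟩
  refine ⟨B, ?_, fun x => ⟨fun hx => ?_, hsub x⟩⟩
  · have := hsub _ hq
    show (q : QBar) ∈ B.nonunits
    simpa using this
  · by_contra hxQ
    obtain ⟨y, i, hi, he'⟩ :=
      (Ideal.IsPrime.isMaximal ‹_› hQ).exists_inv hxQ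
    have h1 : ((y : H) : QBar) * ((x : H) : QBar) + ((i : H) : QBar) = 1 := by
      have h2 : e y * e x + e i = 1 := by rw [← map_mul, ← map_add, he', map_one]
      exact h2
    exact one_notMem_nonunits (A := B) (h1 ▸ nonunits_add
      (nonunits_mul_left (mem_of_isIntegral B
        ((RingOfIntegers.isIntegral_coe y).map H.val.toRingHom.toIntAlgHom)) hx) (hsub i hi))

/-- A nonzero prime of `𝓞 H` contains a prime number. -/
theorem exists_natPrime_mem (Q : Ideal (𝓞 H)) [Q.IsPrime] (hQ : Q ≠ ⊥) :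
    ∃ q : ℕ, q.Prime ∧ (q : 𝓞 H) ∈ Q := by
  have hne : Ideal.absNorm Q ≠ 0 := by rwa [Ne, Ideal.absNorm_eq_zero_iff]
  have key : ∀ n : ℕ, n ≠ 0 → (n : 𝓞 H) ∈ Q → ∃ q : ℕ, q.Prime ∧ (q : 𝓞 H) ∈ Q := fun n => by
    induction n using Nat.recOnMul with
    | zero => exact fun h => absurd rfl h
    | one => exact fun _ h => absurd (Q.eq_top_iff_one.2 (by simpa using h)) (Ideal.IsPrime.ne_top ‹_›)
    | prime p hp => exact fun _ h => ⟨p, hp, h⟩
    | mul a b iha ihb =>
      intro hab h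
      rw [Nat.mul_ne_zero_iff] at hab
      rw [Nat.cast_mul] at h
      rcases Ideal.IsPrime.mem_or_mem ‹_› h with h | h
      · exact iha hab.1 h
      · exact ihb hab.2 h
  exact key _ hne (Ideal.absNorm_mem Q)

/-- Places without inertia in `H/K` give primes of `𝓞 H` without inertia in `Gal(H/K)`. -/
theorem inertia_eq_one [IsGalois K H] (hN : ∀ (σ : GQ) (x : QBar), x ∈ H → σ x ∈ H)
    (hI : ∀ (q : ℕ) (_ : q.Prime) (A : ValuationSubring QBar), A.LiesOverPrime q →
      ∀ σ ∈ A.inertiaSubgroupIn ℚ, (∀ x ∈ K, σ x = x) → ∀ x ∈ H, σ x = x)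
    (Q : Ideal (𝓞 H)) [Q.IsPrime] (hQ : Q ≠ ⊥) (g : Gal(H/K))
    (hg : ∀ x : 𝓞 H, g • x - x ∈ Q) : g = 1 := by
  obtain ⟨q, hq, hqQ⟩ := exists_natPrime_mem K H Q hQ
  obtain ⟨B, hB, hBQ⟩ := exists_place_over K H Q hQ hqQ
  obtain ⟨s, hs⟩ := AlgEquiv.restrictNormalHom_surjective (F := K) (K₁ := H) QBar g
  set σ : GQ := s.restrictScalars ℚ
  have hσ : ∀ x : H, σ (x : QBar) = (g x : H) := fun x => by
    rw [← hs]
    exact (AlgEquiv.restrictNormal_commutes s H x).symm
  set H' : IntermediateField ℚ QBar := IntermediateField.restrictScalars ℚ H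
  have hH' : ∀ {τ : GQ}, τ ∈ H'.fixingSubgroup ↔ ∀ x ∈ H, τ x = x := fun {τ} =>
    IntermediateField.mem_fixingSubgroup_iff _ _
  haveI : FiniteDimensional ℚ H' := NumberField.to_finiteDimensional (K := H)
  haveI : H'.fixingSubgroup.Normal := ⟨fun h hh γ => hH'.2 fun x hx => by
    rw [AlgEquiv.mul_apply, AlgEquiv.mul_apply, hH'.1 hh _ (hN γ⁻¹ x hx)]
    exact γ.apply_symm_apply x⟩
  obtain ⟨h, hh, hin⟩ := exists_inertia_lift hB hq H'.fixingSubgroup
    H'.fixingSubgroup_isClosed σ fun x hx hfix => by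
      have hxH : x ∈ H' := by
        rw [← InfiniteGalois.fixedField_fixingSubgroup H']
        exact fun τ => hfix τ.1 τ.2
      have hxi : IsIntegral ℤ (⟨x, hxH⟩ : H) :=
        (isIntegral_algHom_iff H.val.toRingHom.toIntAlgHom H.val.injective).mp hx
      have h1 := (hBQ _).2 (hg ⟨⟨x, hxH⟩, hxi⟩)
      rw [hσ ⟨x, hxH⟩]
      exact h1
  have hfixH := hI q hq B hB _ hin fun x hx => by
    have hxH : x ∈ H := H.algebraMap_mem ⟨x, hx⟩
    rw [AlgEquiv.mul_apply, show σ x = x from s.commutes ⟨x, hx⟩]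
    exact hH'.1 hh x hxH
  refine AlgEquiv.ext fun x => Subtype.ext ?_
  have h2 := hfixH x x.2
  rw [AlgEquiv.mul_apply, hσ, hH'.1 hh _ (g x).2] at h2
  exact h2

/-- If a Frobenius at `q` fixes `H`, every prime of `𝓞 H` over `q` has norm `q`. -/
theorem absNorm_eq_of_frobenius_trivial (hN : ∀ (σ : GQ) (x : QBar), x ∈ H → σ x ∈ H)
    {q : ℕ} (hq : q.Prime) {A : ValuationSubring QBar} (hA : A.LiesOverPrime q) {σ : GQ}
    (hσ : A.IsFrobeniusAt σ q) (hH : ∀ x ∈ H, σ x = x) (Q : Ideal (𝓞 H)) [Q.IsPrime]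
    (hQ : (q : 𝓞 H) ∈ Q) : Ideal.absNorm Q = q := by
  have hQ0 : Q ≠ ⊥ := fun h => by
    rw [h, Ideal.mem_bot, Nat.cast_eq_zero] at hQ
    exact hq.ne_zero hQ
  obtain ⟨B, hB, hBQ⟩ := exists_place_over K H Q hQ0 hQ
  obtain ⟨γ, rfl⟩ := exists_smul_eq hA hB hq
  have hfrob := (isFrobeniusAt_iff hB hq).1 (isFrobeniusAt_conj (g := γ) hσ)
  haveI : Q.IsMaximal := Ideal.IsPrime.isMaximal ‹_› hQ0
  haveI : Finite (𝓞 H ⧸ Q) := Ideal.finiteQuotientOfFreeOfNeBot Q hQ0
  have hcard : Nat.card (𝓞 H ⧸ Q) ≤ q := by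
    refine ClassField.natCard_quotient_le hq.one_lt fun x => ?_
    have h1 := hfrob _ ((RingOfIntegers.isIntegral_coe x).map H.val.toRingHom.toIntAlgHom)
    have hfix : (γ * σ * γ⁻¹) ((x : H) : QBar) = ((x : H) : QBar) := by
      rw [AlgEquiv.mul_apply, AlgEquiv.mul_apply, hH _ (hN γ⁻¹ _ (x : H).2)]
      exact γ.apply_symm_apply _
    change (γ * σ * γ⁻¹) ((x : H) : QBar) - ((x : H) : QBar) ^ q ∈ (γ • A).nonunits at h1
    rw [hfix] at h1
    have h2 : x - x ^ q ∈ Q := (hBQ _).1 (by simpa using h1)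
    simpa using Q.neg_mem h2
  have hnorm : Ideal.absNorm Q = Nat.card (𝓞 H ⧸ Q) := Submodule.cardQuot_apply _
  have hdvd : Ideal.absNorm Q ∣ q ^ Module.finrank ℤ (𝓞 H) := by
    have h := Ideal.absNorm_dvd_absNorm_of_le
      ((Ideal.span_singleton_le_iff_mem Q).2 hQ)
    rwa [Ideal.absNorm_span_singleton, ← map_natCast (algebraMap ℤ (𝓞 H)),
      Algebra.norm_algebraMap, Int.natAbs_pow, Int.natAbs_natCast] at h
  obtain ⟨k, -, hk⟩ := (Nat.dvd_prime_pow hq).1 hdvd
  rcases Nat.lt_trichotomy k 1 with h | h | h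
  · exact absurd (by rw [hk, Nat.lt_one_iff.1 h, pow_zero] : Ideal.absNorm Q = 1)
      (fun h1 => Ideal.IsPrime.ne_top ‹_› (Ideal.absNorm_eq_one_iff.1 h1))
  · rw [hk, h, pow_one]
  · exact absurd (le_of_eq_of_le (hk.symm.trans hnorm) hcard)
      (not_le.2 (lt_self_pow₀ hq.one_lt h))

end Fermat.Agent.TwoAdic.CFT
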