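import Fermat.Agent.TwoAdic.CFT.ClassHom

/-!
# The class group character of an unramified cyclic cubic extension of a quadratic imaginary field

If `H/K` is a cubic Galois extension unramified at every prime and all units of `K` are `±1`,
then the norm map on class groups is not surjective (capitulation plus the ambiguous class
count), so some nontrivial cubic character of the class group of `K` kills every norm.
-/

set_option autoImplicit false

noncomputable section

namespace Fermat.Agent.TwoAdic.CFT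

open scoped NumberField nonZeroDivisors Pointwise Classical
open NumberField

variable {K H : Type} [Field K] [NumberField K] [Field H] [NumberField H] [Algebra K H]
  [IsGalois K H]

/-- A nontrivial element generating the Galois group of a cubic extension. -/
theorem exists_generator (hdeg : Module.finrank K H = 3) :
    ∃ s : Gal(H/K), (∀ g, g ∈ Subgroup.zpowers s) ∧ (Finset.univ : Finset Gal(H/K)) = {1, s, s * s}
      ∧ s * (s * s) = 1 := by
  classical
  haveI : Fact (Nat.Prime 3) := ⟨Nat.prime_three⟩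
  have hcard : Nat.card Gal(H/K) = 3 := by rw [IsGalois.card_aut_eq_finrank, hdeg]
  obtain ⟨s, hs⟩ : ∃ s : Gal(H/K), s ≠ 1 := by
    haveI : Nontrivial Gal(H/K) := Finite.one_lt_card_iff_nontrivial.mp (by omega)
    exact exists_ne 1
  have hord : orderOf s = 3 :=
    ((Nat.dvd_prime Nat.prime_three).mp (hcard ▸ orderOf_dvd_natCard s)).resolve_left
      (by simpa using hs)
  have h3 : s * (s * s) = 1 := by
    have := pow_orderOf_eq_one s
    rw [hord, pow_succ, pow_two] at this
    rw [← mul_assoc]; exact this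
  refine ⟨s, fun g => mem_zpowers_of_prime_card hcard hs, ?_, h3⟩
  symm
  refine Finset.eq_univ_of_card _ ?_
  have hss : s * s ≠ s := fun h => hs (by simpa using h)
  have hss1 : s * s ≠ 1 := fun h => by
    rw [h, mul_one] at h3; exact hs h3
  rw [Finset.card_insert_of_notMem (by simp [Ne.symm hs, Ne.symm hss1]),
    Finset.card_insert_of_notMem (by simp [Ne.symm hss]), Finset.card_singleton,
    ← Nat.card_eq_fintype_card, hcard]

/-- The group of units as acted upon by an automorphism. -/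
def unitConj (g : Gal(H/K)) : (𝓞 H)ˣ →* (𝓞 H)ˣ :=
  Units.map (MulSemiringAction.toRingHom Gal(H/K) (𝓞 H) g : 𝓞 H →* 𝓞 H)

theorem coe_unitConj (g : Gal(H/K)) (u : (𝓞 H)ˣ) :
    ((unitConj g u : (𝓞 H)ˣ) : 𝓞 H) = g • (u : 𝓞 H) := rfl

/-- The product of the conjugates of a unit is `±1` when `K` has only the units `±1`. -/
theorem unit_norm_eq (hK : ∀ u : (𝓞 K)ˣ, u = 1 ∨ u = -1) {s : Gal(H/K)}
    (huniv : (Finset.univ : Finset Gal(H/K)) = {1, s, s * s}) (hs : s ≠ 1) (hss : s * s ≠ 1)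
    (u : (𝓞 H)ˣ) :
    u * unitConj s u * unitConj (s * s) u = 1 ∨ u * unitConj s u * unitConj (s * s) u = -1 := by
  classical
  have hne : s ≠ s * s := fun h => hs (by simpa using h.symm)
  have hprod : algebraMap K H (Algebra.norm K ((u : 𝓞 H) : H)) =
      ((u * unitConj s u * unitConj (s * s) u : (𝓞 H)ˣ) : 𝓞 H) := by
    rw [Algebra.norm_eq_prod_automorphisms, huniv,
      Finset.prod_insert (by simp [Ne.symm hs, Ne.symm hss]), Finset.prod_pair hne, ← mul_assoc]
    rfl
  have hN : algebraMap K H (((Units.map (RingOfIntegers.norm K) u : (𝓞 K)ˣ) : 𝓞 K) : K) =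
      algebraMap K H (Algebra.norm K ((u : 𝓞 H) : H)) := by
    rw [Units.coe_map, RingOfIntegers.coe_norm]
  rcases hK (Units.map (RingOfIntegers.norm K) u) with h | h
  · left
    refine Units.ext (RingOfIntegers.ext ?_)
    rw [← hprod, ← hN, h]
    simp
  · right
    refine Units.ext (RingOfIntegers.ext ?_)
    rw [← hprod, ← hN, h]
    simp

/-- Hilbert 90 with an integral witness. -/
theorem exists_integral_ratio {s : Gal(H/K)} (hgen : ∀ g, g ∈ Subgroup.zpowers s) {z : H}
    (hz : Algebra.norm K z = 1) : ∃ a : 𝓞 H, a ≠ 0 ∧ z * s (a : H) = a := by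
  haveI : IsCyclic Gal(H/K) := ⟨⟨s, hgen⟩⟩
  obtain ⟨y, hy⟩ := groupCohomology.exists_div_of_norm_eq_one hgen hz
  obtain ⟨n, hn, hint⟩ : ∃ n : ℤ, n ≠ 0 ∧ IsIntegral ℤ ((n : H) * (y : H)) := by
    obtain ⟨n, hn, hint⟩ := ((IsFractionRing.isAlgebraic_iff ℤ ℚ H).mpr
      (Algebra.IsAlgebraic.isAlgebraic (y : H))).exists_integral_multiple
    exact ⟨n, hn, by rwa [← zsmul_eq_mul]⟩
  refine ⟨⟨_, hint⟩, fun h => ?_, ?_⟩
  · exact mul_ne_zero (Int.cast_ne_zero.mpr hn) y.ne_zero (congrArg Subtype.val h)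
  · show z * s ((n : H) * y) = (n : H) * y
    rw [map_mul, map_intCast, ← hy]
    have : s (y : H) ≠ 0 := by simp
    field_simp

/-- A field of degree at least `3` over `ℚ` has units of infinite order. -/
theorem rank_pos (h : 3 ≤ Module.finrank ℚ H) : 0 < Units.rank H := by
  have h1 := InfinitePlace.card_add_two_mul_card_eq_rank H
  have h2 := InfinitePlace.card_eq_nrRealPlaces_add_nrComplexPlaces H
  unfold Units.rank
  omega

/-- If the fundamental units are not cubes modulo torsion, this one is not. -/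
theorem fundSystem_ne_torsion_mul_cube (i : Fin (Units.rank H)) (ζ : (𝓞 H)ˣ)
    (hζ : ζ ∈ Units.torsion H) (w : (𝓞 H)ˣ) : Units.fundSystem H i ≠ ζ * w ^ (3 : ℤ) := by
  intro h
  obtain ⟨⟨z, e⟩, hw, -⟩ := Units.exist_unique_eq_mul_prod H w
  have h1 : Units.fundSystem H i = 1 * ∏ j, Units.fundSystem H j ^ ((Pi.single i 1 : Fin (Units.rank H) → ℤ) j) := by
    simp [Pi.single_apply]
  have h2 : Units.fundSystem H i = (ζ * (z : (𝓞 H)ˣ) ^ (3 : ℤ)) *
      ∏ j, Units.fundSystem H j ^ (3 * e j) := by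
    rw [h, hw, mul_zpow, ← mul_assoc, ← Finset.prod_zpow]
    exact congrArg _ (Finset.prod_congr rfl fun j _ => by rw [← zpow_mul, mul_comm])
  have h3 := (Units.fun_eq_repr H (one_mem _) h1).trans
    (Units.fun_eq_repr H (mul_mem hζ (zpow_mem z.2 _)) h2).symm
  have h4 := congrFun h3 i
  simp at h4
  omega

/-- Some unit of relative norm `1` is not `torsion * conjugate ratio`. -/
theorem exists_unit_notMem (hdeg : Module.finrank K H = 3) (hK : ∀ u : (𝓞 K)ˣ, u = 1 ∨ u = -1)
    {s : Gal(H/K)} (huniv : (Finset.univ : Finset Gal(H/K)) = {1, s, s * s}) (hs : s ≠ 1)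
    (hss : s * s ≠ 1) :
    ∃ u : (𝓞 H)ˣ, u * unitConj s u * unitConj (s * s) u = 1 ∧
      ∀ v : (𝓞 H)ˣ, u ≠ v * (unitConj s v)⁻¹ := by
  by_contra hall
  push Not at hall
  have hneg : (-1 : (𝓞 H)ˣ) ∈ Units.torsion H :=
    (CommGroup.mem_torsion _).mpr (isOfFinOrder_iff_pow_eq_one.mpr ⟨2, two_pos, by simp⟩)
  have hmap : ∀ ζ ∈ Units.torsion H, ∀ g : Gal(H/K), unitConj g ζ ∈ Units.torsion H :=
    fun ζ hζ g => (CommGroup.mem_torsion _).mpr
      (MonoidHom.isOfFinOrder _ ((CommGroup.mem_torsion _).mp hζ))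
  have hdec : ∀ u : (𝓞 H)ˣ, ∃ ζ ∈ Units.torsion H, ∃ v, u = ζ * (v * (unitConj s v)⁻¹) := by
    intro u
    rcases unit_norm_eq hK huniv hs hss u with h | h
    · obtain ⟨v, hv⟩ := hall u h
      exact ⟨1, one_mem _, v, by rw [one_mul]; exact hv⟩
    · obtain ⟨v, hv⟩ := hall (-u) (by
        have e : ∀ g : Gal(H/K), unitConj g (-u) = -unitConj g u := fun g => by
          refine Units.ext ?_
          simp [coe_unitConj, smul_neg]
        rw [e, e]; simp [h])
      exact ⟨-1, hneg, v, by rw [← hv]; simp⟩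
  have hrank : 0 < Units.rank H := rank_pos (by
    rw [← Module.finrank_mul_finrank ℚ K H, hdeg]
    have := Module.finrank_pos (R := ℚ) (M := K)
    omega)
  obtain ⟨ζ, hζ, v, hu⟩ := hdec (Units.fundSystem H ⟨0, hrank⟩)
  obtain ⟨ζ', hζ', w, hv⟩ := hdec v
  set a := w; set b := unitConj s w; set c := unitConj (s * s) w with hc
  have hcomp : unitConj s b = c := Units.ext (by simp [b, hc, coe_unitConj, mul_smul])
  obtain ⟨ε, hε, hN⟩ : ∃ ε ∈ Units.torsion H, a * b * c = ε := by
    rcases unit_norm_eq hK huniv hs hss w with h | h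
    · exact ⟨1, one_mem _, h⟩
    · exact ⟨-1, hneg, h⟩
  refine fundSystem_ne_torsion_mul_cube ⟨0, hrank⟩ (ζ * (ζ' * (unitConj s ζ')⁻¹) * ε)
    (mul_mem (mul_mem hζ (mul_mem hζ' (inv_mem (hmap _ hζ' s)))) hε) b⁻¹ ?_
  rw [hu, hv, map_mul, map_mul, map_inv, hcomp, ← hN]
  change ζ * (ζ' * (a * b⁻¹) * (unitConj s ζ' * (b * c⁻¹))⁻¹) = _
  refine Additive.ofMul.injective ?_
  simp only [ofMul_mul, ofMul_inv, ofMul_zpow]
  abel

theorem exists_cubic_character {B : Type*} [CommGroup B] (N : Subgroup B) (hN : N ≠ ⊤)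
    (h3 : ∀ b, b ^ 3 ∈ N) :
    ∃ χ : B →* Multiplicative (ZMod 3), χ ≠ 1 ∧ ∀ n ∈ N, χ n = 1 := by
  haveI : Fact (Nat.Prime 3) := ⟨Nat.prime_three⟩
  have hexp : ∀ x : Additive (B ⧸ N), 3 • x = 0 := fun x => by
    obtain ⟨b, hb⟩ := QuotientGroup.mk_surjective (Additive.toMul x)
    show Additive.ofMul (Additive.toMul x ^ 3) = 0
    rw [← hb, ← QuotientGroup.mk_pow, (QuotientGroup.eq_one_iff _).mpr (h3 b), ofMul_one]
  letI : Module (ZMod 3) (Additive (B ⧸ N)) := AddCommGroup.zmodModule hexp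
  obtain ⟨b, hb⟩ : ∃ b, b ∉ N := by
    by_contra h
    push Not at h
    exact hN (Subgroup.eq_top_iff' N |>.mpr h)
  set v : Additive (B ⧸ N) := Additive.ofMul (QuotientGroup.mk b)
  have hv : v ≠ 0 := fun h => hb ((QuotientGroup.eq_one_iff b).mp h)
  set bas := Module.Basis.ofVectorSpace (ZMod 3) (Additive (B ⧸ N))
  obtain ⟨i, hi⟩ : ∃ i, bas.coord i v ≠ 0 := by
    by_contra h
    push Not at h
    exact hv (bas.forall_coord_eq_zero_iff.mp h)
  refine ⟨((bas.coord i).toAddMonoidHom.toMultiplicativeRight).comp (QuotientGroup.mk' N), ?_, ?_⟩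
  · intro h
    exact hi (congrArg Multiplicative.toAdd (DFunLike.congr_fun h b))
  · intro n hn
    simp [(QuotientGroup.eq_one_iff n).mpr hn]

set_option maxHeartbeats 800000 in
/-- **The cubic class group character.** -/
theorem exists_classGroupChar (hdeg : Module.finrank K H = 3)
    (hK : ∀ u : (𝓞 K)ˣ, u = 1 ∨ u = -1)
    (hunr : ∀ (Q : Ideal (𝓞 H)), Q.IsPrime → Q ≠ ⊥ → ∀ g : Gal(H/K),
      (∀ x : 𝓞 H, g • x - x ∈ Q) → g = 1) :
    ∃ χ : ClassGroup (𝓞 K) →* Multiplicative (ZMod 3), χ ≠ 1 ∧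
      ∀ I : (Ideal (𝓞 H))⁰, χ (ClassGroup.mk0 (relNorm₀ K H I)) = 1 := by
  classical
  obtain ⟨s, hgen, huniv, h3⟩ := exists_generator (K := K) (H := H) hdeg
  have hs : s ≠ 1 := by
    rintro rfl
    have hcard : (Finset.univ : Finset Gal(H/K)).card = 3 := by
      rw [Finset.card_univ, ← Nat.card_eq_fintype_card, IsGalois.card_aut_eq_finrank, hdeg]
    rw [huniv] at hcard
    simp at hcard
  have hss : s * s ≠ 1 := fun h => hs (by rw [h, mul_one] at h3; exact h3)
  have hinvall : ∀ I : Ideal (𝓞 H), s • I = I → ∀ g : Gal(H/K), g • I = I := fun I hI g => by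
    obtain ⟨k, rfl⟩ := Subgroup.mem_zpowers_iff.mp (hgen g)
    exact MulAction.mem_stabilizer_iff.mp (zpow_mem (MulAction.mem_stabilizer_iff.mpr hI) k)
  let i : ClassGroup (𝓞 K) →* ClassGroup (𝓞 H) := ClassGroup.extendedHom (𝓞 K) (𝓞 H)
  let δ : ClassGroup (𝓞 H) →* ClassGroup (𝓞 H) := classConj s / MonoidHom.id _
  let N := classNorm K H
  have hfr : Module.finrank (𝓞 K) (𝓞 H) = 3 :=
    (IsFractionRing.finrank_eq (𝓞 K) K (𝓞 H) H).symm.trans hdeg
  -- `i` is not injective
  have hF1 : ∃ c : ClassGroup (𝓞 K), c ≠ 1 ∧ i c = 1 := by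
    obtain ⟨u, hu1, hu⟩ := exists_unit_notMem hdeg hK huniv hs hss
    have hnorm : Algebra.norm K ((u : 𝓞 H) : H) = 1 := by
      apply (algebraMap K H).injective
      rw [map_one, Algebra.norm_eq_prod_automorphisms, huniv,
        Finset.prod_insert (by simp [Ne.symm hs, Ne.symm hss]),
        Finset.prod_pair (fun h => hs (by simpa using h.symm)), ← mul_assoc]
      exact congrArg (fun x : (𝓞 H)ˣ => ((x : 𝓞 H) : H)) hu1
    obtain ⟨a, ha0, ha⟩ := exists_integral_ratio hgen hnorm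
    have ha' : (u : 𝓞 H) * s • a = a := RingOfIntegers.coe_injective ha
    have hinv : s • Ideal.span ({a} : Set (𝓞 H)) = Ideal.span {a} := by
      rw [smul_span_singleton]
      conv_rhs => rw [← ha']
      exact (Ideal.span_singleton_mul_left_unit u.isUnit _).symm
    obtain ⟨J, hJ0, hJ⟩ := exists_eq_map_of_smul_eq hunr _ (by simpa using ha0) (hinvall _ hinv)
    let J₀ : (Ideal (𝓞 K))⁰ := ⟨J, mem_nonZeroDivisors_iff_ne_zero.mpr hJ0⟩
    refine ⟨ClassGroup.mk0 J₀, fun hone => ?_, ?_⟩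
    · obtain ⟨k, hk⟩ := (ClassGroup.mk0_eq_one_iff J₀.2).mp hone
      change J = Ideal.span {k} at hk
      rw [hk, Ideal.map_span, Set.image_singleton, Ideal.span_singleton_eq_span_singleton] at hJ
      obtain ⟨e, he⟩ := hJ
      refine hu e⁻¹ (Units.ext ?_)
      rw [map_inv, inv_inv, Units.val_mul, coe_unitConj]
      have h1 : s • a * s • (e : 𝓞 H) = a * e := by
        rw [← smul_mul', he]; exact smul_algebraMap s k
      refine mul_left_cancel₀ ha0 (mul_right_cancel₀ e.ne_zero ?_)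
      calc a * (u : 𝓞 H) * e = u * (a * e) := by ring
        _ = ((u : 𝓞 H) * s • a) * s • (e : 𝓞 H) := by rw [← h1, mul_assoc]
        _ = a * ((↑e⁻¹ : 𝓞 H) * s • (e : 𝓞 H)) * e := by
            rw [ha']
            linear_combination -(a * s • (e : 𝓞 H)) * e.inv_mul
    · rw [show i = ClassGroup.extendedHom (𝓞 K) (𝓞 H) from rfl, ClassGroup.extendedHom_mk0,
        ClassGroup.mk0_eq_one_iff]
      exact ⟨a, hJ.symm⟩
  -- fixed classes are extended
  have hF2 : δ.ker ≤ i.range := fun c hc => by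
    obtain ⟨J, rfl⟩ := ClassGroup.mk0_surjective c
    have hc' : ClassGroup.mk0 (conj₀ s J) = ClassGroup.mk0 J := by
      rw [← classConj_mk0]; exact div_eq_one.mp hc
    obtain ⟨x, y, hx, hy, hxy⟩ := ClassGroup.mk0_eq_mk0_iff.mp hc'
    change Ideal.span {x} * s • (J : Ideal (𝓞 H)) = Ideal.span {y} * J at hxy
    have hN := congrArg (Ideal.relNorm (𝓞 K)) hxy
    rw [map_mul, map_mul, Ideal.relNorm_smul, Ideal.relNorm_singleton,
      Ideal.relNorm_singleton] at hN
    have hN' := mul_right_cancel₀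
      (Ideal.relNorm_eq_bot_iff.not.mpr (nonZeroDivisors.ne_zero J.2)) hN
    obtain ⟨e, he⟩ := Ideal.span_singleton_eq_span_singleton.mp hN'
    have heq : Algebra.norm K (x : H) * ((e : 𝓞 K) : K) = Algebra.norm K (y : H) := by
      rw [← Algebra.algebraMap_intNorm (A := 𝓞 K) (K := K) (L := H) (B := 𝓞 H) x,
        ← Algebra.algebraMap_intNorm (A := 𝓞 K) (K := K) (L := H) (B := 𝓞 H) y, ← he, map_mul]
    obtain ⟨y', hy0, hspan, hnorm⟩ : ∃ y' : 𝓞 H, y' ≠ 0 ∧ Ideal.span {y'} = Ideal.span {y} ∧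
        Algebra.norm K (y' : H) = Algebra.norm K (x : H) := by
      rcases hK e with rfl | rfl
      · exact ⟨y, hy, rfl, by simpa using heq.symm⟩
      · refine ⟨-y, neg_ne_zero.mpr hy, Ideal.span_singleton_neg y, ?_⟩
        have : Algebra.norm K (-1 : H) = -1 := by
          rw [show (-1 : H) = algebraMap K H (-1) by simp, Algebra.norm_algebraMap, hdeg]
          norm_num
        rw [show ((-y : 𝓞 H) : H) = -1 * (y : H) by simp, map_mul, this, ← heq]
        simp
    have hx' : (x : H) ≠ 0 := by simpa using hx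
    obtain ⟨a, ha0, ha⟩ := exists_integral_ratio hgen (z := (y' : H) / (x : H)) (by
      rw [div_eq_mul_inv, map_mul, Algebra.norm_inv, hnorm, ← div_eq_mul_inv, div_self (Algebra.norm_ne_zero_iff.mpr hx')])
    have ha' : y' * s • a = x * a := RingOfIntegers.coe_injective (by
      rw [map_mul, map_mul]
      change (y' : H) * s (a : H) = (x : H) * (a : H)
      conv_rhs => rw [← ha]
      field_simp)
    have hinv : s • ((J : Ideal (𝓞 H)) * Ideal.span {a}) = (J : Ideal (𝓞 H)) * Ideal.span {a} := by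
      refine mul_left_cancel₀ (a := Ideal.span {x}) (by simpa using hx) ?_
      rw [smul_mul', smul_span_singleton, ← mul_assoc, hxy, ← hspan, mul_right_comm,
        Ideal.span_singleton_mul_span_singleton, ha', ← Ideal.span_singleton_mul_span_singleton,
        mul_assoc, mul_comm (Ideal.span {a})]
    obtain ⟨J', hJ'0, hJ'⟩ := exists_eq_map_of_smul_eq hunr _
      (mul_ne_zero (nonZeroDivisors.ne_zero J.2) (by simpa using ha0)) (hinvall _ hinv)
    let J₀ : (Ideal (𝓞 K))⁰ := ⟨J', mem_nonZeroDivisors_iff_ne_zero.mpr hJ'0⟩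
    refine ⟨ClassGroup.mk0 J₀, ?_⟩
    rw [show i = ClassGroup.extendedHom (𝓞 K) (𝓞 H) from rfl, ClassGroup.extendedHom_mk0,
      ClassGroup.mk0_eq_mk0_iff]
    exact ⟨1, a, one_ne_zero, ha0, by
      rw [Ideal.span_singleton_one, Ideal.top_mul, mul_comm (Ideal.span {a})]
      exact hJ'.symm⟩
  -- the index inequality
  have hrange : δ.range ≤ N.ker := by
    rintro _ ⟨c, rfl⟩
    show N (classConj s c / c) = 1
    rw [map_div, classNorm_classConj, div_self']
  have hne : N.range ≠ ⊤ := by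
    intro htop
    obtain ⟨c, hc1, hc⟩ := hF1
    have h1 := N.ker.card_mul_index
    rw [Subgroup.index_ker] at h1
    have h2 := δ.ker.card_mul_index
    rw [Subgroup.index_ker] at h2
    have h3 : Nat.card δ.range ≤ Nat.card N.ker := Subgroup.card_le_of_le hrange
    have h4 : Nat.card δ.ker ≤ Nat.card i.range := Subgroup.card_le_of_le hF2
    have h5 : Nat.card N.range = Nat.card (ClassGroup (𝓞 K)) := by rw [htop, Subgroup.card_top]
    have h6 := i.ker.card_mul_index
    rw [Subgroup.index_ker] at h6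
    have h7 : 1 < Nat.card i.ker := by
      rw [Subgroup.one_lt_card_iff_ne_bot]
      exact fun h => hc1 (Subgroup.mem_bot.mp (h ▸ hc))
    have hpos : 0 < Nat.card i.range := Nat.card_pos
    have h8 : Nat.card i.range < Nat.card (ClassGroup (𝓞 K)) := by
      rw [← h6]; exact lt_mul_left hpos h7
    have hposB : 0 < Nat.card δ.range := Nat.card_pos
    rw [h5] at h1
    nlinarith
  have hcube : ∀ b : ClassGroup (𝓞 K), b ^ 3 ∈ N.range := fun b => by
    obtain ⟨J, rfl⟩ := ClassGroup.mk0_surjective b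
    refine ⟨ClassGroup.mk0 (ClassGroup.extendedIdeal (𝓞 K) (𝓞 H) J), ?_⟩
    rw [show N = classNorm K H from rfl, classNorm_mk0, ← map_pow]
    exact congrArg _ (Subtype.ext (by
      simpa [relNorm₀, hfr] using Ideal.relNorm_algebraMap (R := 𝓞 K) (𝓞 H) (J : Ideal (𝓞 K))))
  obtain ⟨χ, hχ, hker⟩ := exists_cubic_character N.range hne hcube
  exact ⟨χ, hχ, fun I => hker _ ⟨ClassGroup.mk0 I, classNorm_mk0 K H I⟩⟩

end Fermat.Agent.TwoAdic.CFT
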