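import Mathlib

/-!
# Homomorphisms out of class groups, and invariant ideals in unramified Galois extensions

* `classHom`: a homomorphism on nonzero ideals killing the principal ones descends to the class
  group;
* `classNorm`, `classConj`: the relative norm and the Galois action on class groups;
* `exists_eq_map_of_smul_eq`: in an everywhere unramified Galois extension of number fields, an
  ideal fixed by the Galois group is extended from the base.
-/

set_option autoImplicit false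

noncomputable section

namespace Fermat.Agent.TwoAdic.CFT

open scoped NumberField nonZeroDivisors Pointwise

section ClassHom

variable {R : Type*} [CommRing R] [IsDedekindDomain R] {G : Type*} [CommGroup G]

/-- A homomorphism on nonzero ideals which is trivial on principal ideals descends to the class
group. -/
def classHom (f : (Ideal R)⁰ →* G)
    (hf : ∀ I : (Ideal R)⁰, (I : Ideal R).IsPrincipal → f I = 1) : ClassGroup R →* G where
  toFun c := f (ClassGroup.mk0_surjective c).choose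
  map_one' := hf _ <| (ClassGroup.mk0_eq_one_iff (ClassGroup.mk0_surjective 1).choose.2).mp
    (ClassGroup.mk0_surjective 1).choose_spec
  map_mul' c d := by
    set I := (ClassGroup.mk0_surjective c).choose with hI
    set J := (ClassGroup.mk0_surjective d).choose with hJ
    set L := (ClassGroup.mk0_surjective (c * d)).choose with hL
    have h : ClassGroup.mk0 L = ClassGroup.mk0 (I * J) := by
      rw [map_mul, (ClassGroup.mk0_surjective c).choose_spec,
        (ClassGroup.mk0_surjective d).choose_spec, (ClassGroup.mk0_surjective (c * d)).choose_spec]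
    obtain ⟨x, y, hx, hy, hxy⟩ := ClassGroup.mk0_eq_mk0_iff.mp h
    let X : (Ideal R)⁰ := ⟨Ideal.span {x}, mem_nonZeroDivisors_iff_ne_zero.mpr (by simpa using hx)⟩
    let Y : (Ideal R)⁰ := ⟨Ideal.span {y}, mem_nonZeroDivisors_iff_ne_zero.mpr (by simpa using hy)⟩
    have e : X * L = Y * (I * J) := Subtype.ext hxy
    have hX : f X = 1 := hf X ⟨x, rfl⟩
    have hY : f Y = 1 := hf Y ⟨y, rfl⟩
    simpa [map_mul, hX, hY] using congrArg f e

theorem classHom_mk0 (f : (Ideal R)⁰ →* G)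
    (hf : ∀ I : (Ideal R)⁰, (I : Ideal R).IsPrincipal → f I = 1) (I : (Ideal R)⁰) :
    classHom f hf (ClassGroup.mk0 I) = f I := by
  obtain ⟨x, y, hx, hy, hxy⟩ := ClassGroup.mk0_eq_mk0_iff.mp
    (ClassGroup.mk0_surjective (ClassGroup.mk0 I)).choose_spec
  let X : (Ideal R)⁰ := ⟨Ideal.span {x}, mem_nonZeroDivisors_iff_ne_zero.mpr (by simpa using hx)⟩
  let Y : (Ideal R)⁰ := ⟨Ideal.span {y}, mem_nonZeroDivisors_iff_ne_zero.mpr (by simpa using hy)⟩
  have e : X * (ClassGroup.mk0_surjective (ClassGroup.mk0 I)).choose = Y * I := Subtype.ext hxy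
  have hX : f X = 1 := hf X ⟨x, rfl⟩
  have hY : f Y = 1 := hf Y ⟨y, rfl⟩
  show f (ClassGroup.mk0_surjective (ClassGroup.mk0 I)).choose = f I
  simpa [map_mul, hX, hY] using congrArg f e

end ClassHom

variable (K H : Type*) [Field K] [NumberField K] [Field H] [NumberField H] [Algebra K H]
  [IsGalois K H]

/-- The relative norm of a nonzero ideal. -/
def relNorm₀ : (Ideal (𝓞 H))⁰ →* (Ideal (𝓞 K))⁰ where
  toFun I := ⟨Ideal.relNorm (𝓞 K) (I : Ideal (𝓞 H)), mem_nonZeroDivisors_iff_ne_zero.mpr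
    (Ideal.relNorm_eq_bot_iff.not.mpr (nonZeroDivisors.ne_zero I.2))⟩
  map_one' := Subtype.ext (map_one _)
  map_mul' I J := Subtype.ext (map_mul (Ideal.relNorm (𝓞 K)) _ _)

/-- The relative norm on class groups. -/
def classNorm : ClassGroup (𝓞 H) →* ClassGroup (𝓞 K) :=
  classHom (ClassGroup.mk0.comp (relNorm₀ K H)) (by
    rintro ⟨I, hI⟩ ⟨x, rfl⟩
    refine (ClassGroup.mk0_eq_one_iff (relNorm₀ K H ⟨_, hI⟩).2).mpr ⟨Algebra.intNorm (𝓞 K) (𝓞 H) x, ?_⟩
    exact Ideal.relNorm_singleton (R := 𝓞 K) x)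

theorem classNorm_mk0 (I : (Ideal (𝓞 H))⁰) :
    classNorm K H (ClassGroup.mk0 I) = ClassGroup.mk0 (relNorm₀ K H I) := classHom_mk0 _ _ I

variable {K H}

/-- The conjugate of a nonzero ideal. -/
def conj₀ (g : Gal(H/K)) : (Ideal (𝓞 H))⁰ →* (Ideal (𝓞 H))⁰ where
  toFun I := ⟨g • (I : Ideal (𝓞 H)), mem_nonZeroDivisors_iff_ne_zero.mpr fun h =>
    nonZeroDivisors.ne_zero I.2 (by
      rw [← inv_smul_smul g (I : Ideal (𝓞 H)), h]; exact smul_zero _)⟩
  map_one' := Subtype.ext (smul_one g)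
  map_mul' I J := Subtype.ext (smul_mul' g (I : Ideal (𝓞 H)) (J : Ideal (𝓞 H)))

theorem smul_span_singleton (g : Gal(H/K)) (x : 𝓞 H) :
    g • Ideal.span ({x} : Set (𝓞 H)) = Ideal.span {g • x} := by
  rw [Ideal.pointwise_smul_def, Ideal.map_span, Set.image_singleton]
  rfl

/-- The Galois action on the class group. -/
def classConj (g : Gal(H/K)) : ClassGroup (𝓞 H) →* ClassGroup (𝓞 H) :=
  classHom (ClassGroup.mk0.comp (conj₀ g)) (by
    rintro ⟨I, hI⟩ ⟨x, rfl⟩
    refine (ClassGroup.mk0_eq_one_iff (conj₀ g ⟨_, hI⟩).2).mpr ⟨g • x, ?_⟩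
    exact smul_span_singleton g x)

theorem classConj_mk0 (g : Gal(H/K)) (I : (Ideal (𝓞 H))⁰) :
    classConj g (ClassGroup.mk0 I) = ClassGroup.mk0 (conj₀ g I) := classHom_mk0 _ _ I

theorem classNorm_classConj (g : Gal(H/K)) (c : ClassGroup (𝓞 H)) :
    classNorm K H (classConj g c) = classNorm K H c := by
  obtain ⟨I, rfl⟩ := ClassGroup.mk0_surjective c
  rw [classConj_mk0, classNorm_mk0, classNorm_mk0]
  exact congrArg _ (Subtype.ext (Ideal.relNorm_smul (R := 𝓞 K) g (I : Ideal (𝓞 H))))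

/-- Unramifiedness, as triviality of all inertia subgroups. -/
theorem ramificationIdx_eq_one_of_inertia_trivial
    (hunr : ∀ (Q : Ideal (𝓞 H)), Q.IsPrime → Q ≠ ⊥ → ∀ g : Gal(H/K),
      (∀ x : 𝓞 H, g • x - x ∈ Q) → g = 1)
    (Q : Ideal (𝓞 H)) [Q.IsPrime] (hQ : Q ≠ ⊥) : Q.ramificationIdx (𝓞 K) = 1 := by
  haveI : Q.IsMaximal := Ideal.IsPrime.isMaximal inferInstance hQ
  have h1 : Q.inertia Gal(H/K) = ⊥ := (Subgroup.eq_bot_iff_forall _).mpr fun g hg =>
    hunr Q inferInstance hQ g fun x => hg x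
  have h2 := Ideal.card_inertia_eq_ramificationIdxIn (G := Gal(H/K)) (Q.under (𝓞 K)) Q
  rw [h1, Subgroup.card_bot,
    Ideal.ramificationIdxIn_eq_ramificationIdx (Q.under (𝓞 K)) Q Gal(H/K)] at h2
  exact h2.symm

/-- In an everywhere unramified Galois extension, invariant ideals are extended. -/
theorem exists_eq_map_of_smul_eq
    (hunr : ∀ (Q : Ideal (𝓞 H)), Q.IsPrime → Q ≠ ⊥ → ∀ g : Gal(H/K),
      (∀ x : 𝓞 H, g • x - x ∈ Q) → g = 1)
    (I : Ideal (𝓞 H)) (hI : I ≠ ⊥) (hinv : ∀ g : Gal(H/K), g • I = I) :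
    ∃ J : Ideal (𝓞 K), J ≠ ⊥ ∧ I = J.map (algebraMap (𝓞 K) (𝓞 H)) := by
  classical
  induction h : Ideal.absNorm I using Nat.strong_induction_on generalizing I with
  | _ n ih => ?_
  subst h
  by_cases htop : I = ⊤
  · exact ⟨⊤, top_ne_bot, by rw [htop, Ideal.map_top]⟩
  obtain ⟨Q, hQ, hIQ⟩ := Ideal.exists_le_maximal I htop
  haveI := hQ
  have hQ0 : Q ≠ ⊥ := fun h => hI (le_bot_iff.mp (h ▸ hIQ))
  set P := Q.under (𝓞 K) with hP
  haveI : P.IsMaximal := Ideal.IsMaximal.under (𝓞 K) Q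
  have hP0 : P ≠ ⊥ := Ideal.under_ne_bot (𝓞 K) hQ0
  -- the extension of `P` is the product of the distinct conjugates of `Q`, all of which contain `I`
  have hdvd : P.map (algebraMap (𝓞 K) (𝓞 H)) ∣ I := by
    rw [Ideal.map_algebraMap_eq_finsetProd_pow hP0]
    have hone : ∀ Q' ∈ (P.primesOver (𝓞 H)).toFinset, Q'.ramificationIdx (𝓞 K) = 1 := by
      intro Q' hQ'
      rw [Set.mem_toFinset] at hQ'
      haveI := hQ'.1
      haveI := hQ'.2
      exact ramificationIdx_eq_one_of_inertia_trivial hunr Q'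
        (Ideal.ne_bot_of_liesOver_of_ne_bot hP0 Q')
    rw [Finset.prod_congr rfl fun Q' hQ' => by rw [hone Q' hQ', pow_one]]
    refine Finset.prod_dvd_of_coprime (fun Q₁ h₁ Q₂ h₂ hne => ?_) fun Q' hQ' => ?_
    · rw [Finset.mem_coe, Set.mem_toFinset] at h₁ h₂
      haveI := h₁.1; haveI := h₁.2; haveI := h₂.1; haveI := h₂.2
      exact Ideal.isCoprime_iff_sup_eq.mpr
        ((Ideal.IsMaximal.of_liesOver_isMaximal Q₁ P).coprime_of_ne
          (Ideal.IsMaximal.of_liesOver_isMaximal Q₂ P) hne)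
    · rw [Set.mem_toFinset] at hQ'
      haveI := hQ'.1
      haveI := hQ'.2
      obtain ⟨g, rfl⟩ := Ideal.exists_smul_eq_of_isGaloisGroup P Q Q' Gal(H/K)
      rw [Ideal.dvd_iff_le, ← hinv g]
      exact Ideal.pointwise_smul_le_pointwise_smul_iff.mpr hIQ
  obtain ⟨I', hI'⟩ := hdvd
  have hI'0 : I' ≠ ⊥ := fun h => hI (by rw [hI', h, Ideal.mul_bot])
  have hPmap : P.map (algebraMap (𝓞 K) (𝓞 H)) ≠ ⊥ := Ideal.map_ne_bot_of_ne_bot hP0
  have hinv' : ∀ g : Gal(H/K), g • I' = I' := fun g => by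
    have hmap : g • P.map (algebraMap (𝓞 K) (𝓞 H)) = P.map (algebraMap (𝓞 K) (𝓞 H)) := by
      rw [Ideal.pointwise_smul_def, Ideal.map_map]
      congr 1
      ext x
      exact smul_algebraMap g x
    have h' := hinv g
    rw [hI', smul_mul', hmap] at h'
    exact mul_left_cancel₀ hPmap h'
  have hlt : Ideal.absNorm I' < Ideal.absNorm I := by
    rw [hI', map_mul]
    refine lt_mul_left (Nat.pos_of_ne_zero (Ideal.absNorm_eq_zero_iff.not.mpr hI'0)) ?_
    have h1 : Ideal.absNorm (P.map (algebraMap (𝓞 K) (𝓞 H))) ≠ 1 := by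
      rw [Ne, Ideal.absNorm_eq_one_iff]
      intro htop'
      exact hQ.ne_top (top_le_iff.mp (htop' ▸ Ideal.map_le_iff_le_comap.mpr le_rfl))
    have h0 := Ideal.absNorm_eq_zero_iff.not.mpr hPmap
    omega
  obtain ⟨J, hJ0, hJ⟩ := ih _ hlt I' hI'0 hinv' rfl
  exact ⟨P * J, mul_ne_zero hP0 hJ0, by rw [hI', hJ, Ideal.map_mul]⟩

end Fermat.Agent.TwoAdic.CFT
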