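import Fermat.Agent.TwoAdic.CFT.Bridge
import Fermat.Agent.TwoAdic.CFT.ClassChar
import Fermat.Agent.TwoAdic.CFT.Quad

/-!
# The class group character attached to a cubic extension inside `ℚ̄`

For `H/K` inside `ℚ̄`, cubic, stable under Galois and without inertia, the character kills the
degree one primes over every `q` whose Frobenius fixes `H`, and it is nontrivial on some degree one
prime outside any finite set.
-/

set_option autoImplicit false

noncomputable section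

namespace Fermat.Agent.TwoAdic.CFT

open scoped NumberField nonZeroDivisors
open Fermat.Agent.Arith (QBar GQ)

section Prime

variable {K : Type*} [Field K] [NumberField K]

/-- A nontrivial character is nontrivial on some prime of degree one outside any finite set,
provided it is trivial on the inert primes. -/
theorem exists_prime_char_ne_one (hK : Module.finrank ℚ K = 2) {G : Type*} [CommGroup G]
    (χ : ClassGroup (𝓞 K) →* G) (hχ : χ ≠ 1) (S : Finset ℕ) :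
    ∃ (q : ℕ) (P : (Ideal (𝓞 K))⁰), q.Prime ∧ q ∉ S ∧ Ideal.absNorm (P : Ideal (𝓞 K)) = q ∧
      χ (ClassGroup.mk0 P) ≠ 1 := by
  classical
  by_contra hall
  push Not at hall
  obtain ⟨c, hc⟩ : ∃ c, χ c ≠ 1 := by
    by_contra h
    push Not at h
    exact hχ (MonoidHom.ext h)
  obtain ⟨J₀, hJ₀⟩ := ClassGroup.mk0_surjective c⁻¹
  set n : ℕ := ∏ p ∈ S.filter Nat.Prime, p with hn
  have hn0 : n ≠ 0 := Finset.prod_ne_zero_iff.mpr fun p hp => (Finset.mem_filter.mp hp).2.ne_zero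
  set M : Ideal (𝓞 K) := Ideal.span {(n : 𝓞 K)} with hM
  have hM0 : M ≠ 0 := by simpa [hM] using hn0
  have hJ₀0 : (J₀ : Ideal (𝓞 K)) ≠ 0 := nonZeroDivisors.ne_zero J₀.2
  obtain ⟨a, ha⟩ := IsDedekindDomain.exists_sup_span_eq
    (Ideal.mul_le_right : M * (J₀ : Ideal (𝓞 K)) ≤ J₀) (mul_ne_zero hM0 hJ₀0)
  obtain ⟨J, hJ⟩ := Ideal.dvd_iff_le.mpr (ha ▸ le_sup_right :
    Ideal.span {a} ≤ (J₀ : Ideal (𝓞 K)))
  have hcop : M ⊔ J = ⊤ := by
    refine mul_left_cancel₀ hJ₀0 ?_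
    rw [Ideal.mul_sup, ← hJ, mul_comm _ M, ha, Ideal.mul_top]
  -- every prime factor of `J` has trivial character
  have key : ∀ (P : (Ideal (𝓞 K))⁰), (P : Ideal (𝓞 K)).IsPrime →
      M ⊔ (P : Ideal (𝓞 K)) = ⊤ → χ (ClassGroup.mk0 P) = 1 := by
    intro P hP hPM
    have hP0 : (P : Ideal (𝓞 K)) ≠ ⊥ := nonZeroDivisors.ne_zero P.2
    obtain ⟨q, hq, hqP⟩ : ∃ q : ℕ, q.Prime ∧ (q : 𝓞 K) ∈ (P : Ideal (𝓞 K)) := by
      have hmem := Ideal.absNorm_mem (P : Ideal (𝓞 K))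
      have hne : Ideal.absNorm (P : Ideal (𝓞 K)) ≠ 0 := Ideal.absNorm_eq_zero_iff.not.mpr hP0
      rw [← Nat.prod_primeFactorsList hne, Nat.cast_list_prod] at hmem
      obtain ⟨x, hx, hxP⟩ := (hP.multiset_prod_mem_iff_exists_mem (List.map _ _ : List (𝓞 K))).mp
        (by simpa using hmem)
      obtain ⟨q, hq, rfl⟩ := List.mem_map.mp hx
      exact ⟨q, Nat.prime_of_mem_primeFactorsList hq, hxP⟩
    rcases absNorm_eq_or_eq_span hK hq hqP with h | h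
    · refine hall q P hq (fun hqS => ?_) h
      refine hP.ne_top (top_le_iff.mp (hPM ▸ sup_le ?_ le_rfl))
      rw [hM, Ideal.span_singleton_le_iff_mem]
      obtain ⟨k, hk⟩ : q ∣ n := Finset.dvd_prod_of_mem _ (Finset.mem_filter.mpr ⟨hqS, hq⟩)
      rw [hk, Nat.cast_mul]
      exact Ideal.mul_mem_right _ _ hqP
    · rw [(ClassGroup.mk0_eq_one_iff P.2).mpr ⟨(q : 𝓞 K), h⟩, map_one]
  have hkey' : ∀ (I : Ideal (𝓞 K)) (hI : I ∈ (Ideal (𝓞 K))⁰), M ⊔ I = ⊤ →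
      χ (ClassGroup.mk0 ⟨I, hI⟩) = 1 := by
    intro I
    induction I using UniqueFactorizationMonoid.induction_on_prime with
    | h₁ => intro hI; exact absurd rfl (nonZeroDivisors.ne_zero hI)
    | h₂ x hx =>
      intro hI _
      rw [(ClassGroup.mk0_eq_one_iff hI).mpr, map_one]
      rw [Ideal.isUnit_iff.mp hx]
      infer_instance
    | h₃ x p hx hp ih =>
      intro hI hIM
      have hp0 : p ∈ (Ideal (𝓞 K))⁰ := mem_nonZeroDivisors_of_ne_zero hp.ne_zero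
      have hx0 : x ∈ (Ideal (𝓞 K))⁰ := mem_nonZeroDivisors_of_ne_zero hx
      have hpM : M ⊔ p = ⊤ := top_le_iff.mp (hIM ▸ sup_le_sup_left Ideal.mul_le_left M)
      have hxM : M ⊔ x = ⊤ := top_le_iff.mp (hIM ▸ sup_le_sup_left Ideal.mul_le_right M)
      rw [show (⟨p * x, hI⟩ : (Ideal (𝓞 K))⁰) = ⟨p, hp0⟩ * ⟨x, hx0⟩ from rfl, map_mul, map_mul,
        key ⟨p, hp0⟩ (Ideal.isPrime_of_prime hp) hpM, ih hx0 hxM, one_mul]
  have ha0 : a ≠ 0 := by
    rintro rfl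
    have h0 : (J₀ : Ideal (𝓞 K)) * J = ⊥ := by rw [← hJ]; simp
    have hJbot : J = ⊥ := (Ideal.mul_eq_bot.mp h0).resolve_left hJ₀0
    rw [hJbot, sup_bot_eq] at hcop
    refine hc ?_
    rw [← inv_inv c, ← hJ₀, map_inv, inv_eq_one]
    refine hkey' _ J₀.2 ?_
    rw [hcop, top_sup_eq]
  have hJmem : J ∈ (Ideal (𝓞 K))⁰ := mem_nonZeroDivisors_of_ne_zero (by
    rintro rfl; exact ha0 (by simpa using hJ))
  have hprod : c⁻¹ * ClassGroup.mk0 ⟨J, hJmem⟩ = 1 := by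
    rw [← hJ₀, ← map_mul, ClassGroup.mk0_eq_one_iff]
    exact ⟨a, hJ.symm⟩
  refine hc ?_
  have := congrArg χ hprod
  rwa [map_mul, hkey' J hJmem hcop, mul_one, map_inv, map_one, inv_eq_one] at this

end Prime

variable (K : IntermediateField ℚ QBar) [NumberField K] (H : IntermediateField K QBar)
  [NumberField H] [IsGalois K H]

/-- **The character of a cubic extension of `K` without inertia.** -/
theorem exists_classChar_of_fields (hK2 : Module.finrank ℚ K = 2) (hdeg : Module.finrank K H = 3)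
    (hK : ∀ u : (𝓞 K)ˣ, u = 1 ∨ u = -1) (hN : ∀ (σ : GQ) (x : QBar), x ∈ H → σ x ∈ H)
    (hI : ∀ (q : ℕ) (_ : q.Prime) (A : ValuationSubring QBar), A.LiesOverPrime q →
      ∀ σ ∈ A.inertiaSubgroupIn ℚ, (∀ x ∈ K, σ x = x) → ∀ x ∈ H, σ x = x) :
    ∃ χ : ClassGroup (𝓞 K) →* Multiplicative (ZMod 3), χ ≠ 1 ∧
      (∀ (q : ℕ), q.Prime → ∀ (A : ValuationSubring QBar), A.LiesOverPrime q →
        ∀ σ : GQ, A.IsFrobeniusAt σ q → (∀ x ∈ H, σ x = x) →
        ∀ P : (Ideal (𝓞 K))⁰, Ideal.absNorm (P : Ideal (𝓞 K)) = q →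
          χ (ClassGroup.mk0 P) = 1) ∧
      ∀ S : Finset ℕ, ∃ (q : ℕ) (P : (Ideal (𝓞 K))⁰), q.Prime ∧ q ∉ S ∧
        Ideal.absNorm (P : Ideal (𝓞 K)) = q ∧ χ (ClassGroup.mk0 P) ≠ 1 := by
  obtain ⟨χ, hχ, hker⟩ := exists_classGroupChar (K := K) (H := H) hdeg hK
    fun Q hQ hQ0 g hg => by
      haveI := hQ
      exact inertia_eq_one K H hN hI Q hQ0 g hg
  refine ⟨χ, hχ, fun q hq A hA σ hσ hfix P hP => ?_, exists_prime_char_ne_one hK2 χ hχ⟩
  haveI hPp : (P : Ideal (𝓞 K)).IsPrime := Ideal.isPrime_of_irreducible_absNorm (hP ▸ hq)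
  haveI : (P : Ideal (𝓞 K)).IsMaximal := hPp.isMaximal (nonZeroDivisors.ne_zero P.2)
  obtain ⟨Q, hQmax, hQP⟩ := Ideal.exists_maximal_ideal_liesOver_of_isIntegral (S := 𝓞 H)
    (P : Ideal (𝓞 K))
  have hqQ : (q : 𝓞 H) ∈ Q := by
    have h1 : (q : 𝓞 K) ∈ (P : Ideal (𝓞 K)) := natCast_mem_of_absNorm_eq hP
    rw [hQP.over, Ideal.under_def, Ideal.mem_comap, map_natCast] at h1
    exact h1
  have hQn := absNorm_eq_of_frobenius_trivial K H hN hq hA hσ hfix Q hqQ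
  have hQ0 : Q ≠ ⊥ := fun h => hq.ne_zero (by rw [← hQn, h, Ideal.absNorm_bot])
  let Q₀ : (Ideal (𝓞 H))⁰ := ⟨Q, mem_nonZeroDivisors_iff_ne_zero.mpr hQ0⟩
  have hle : Ideal.relNorm (𝓞 K) Q ≤ (P : Ideal (𝓞 K)) :=
    (Ideal.relNorm_le_comap (𝓞 K) Q).trans hQP.over.ge
  have heq : Ideal.relNorm (𝓞 K) Q = (P : Ideal (𝓞 K)) := by
    have hn : Ideal.absNorm (Ideal.relNorm (𝓞 K) Q) = q := by
      rw [Ideal.absNorm_relNorm, hQn]
    have hprime : (Ideal.relNorm (𝓞 K) Q).IsPrime :=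
      Ideal.isPrime_of_irreducible_absNorm (hn ▸ hq)
    exact (hprime.isMaximal fun h => hq.ne_zero (by rw [← hn, h, Ideal.absNorm_bot])).eq_of_le
      hPp.ne_top hle
  have : relNorm₀ K H Q₀ = P := Subtype.ext heq
  rw [← this]
  exact hker Q₀

end Fermat.Agent.TwoAdic.CFT
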